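import Fermat.Agent.S05.Defs

set_option autoImplicit false

namespace Fermat.Agent.S05

open WeierstrassCurve WeierstrassCurve.Affine

variable {F : Type*} [Field F] [DecidableEq F]

namespace KummerAux

variable (W : WeierstrassCurve.Affine F)

omit [DecidableEq F] in
/-- `η² = ξ (4 ξ² + β ξ + 4 κ)` -/
lemma eta_sq {e β κ u y : F} (he : 4 * e ^ 3 + W.b₂ * e ^ 2 + 2 * W.b₄ * e + W.b₆ = 0)
    (hβ : β = W.b₂ + 12 * e) (hκ : 2 * κ = W.b₄ + W.b₂ * e + 6 * e ^ 2)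
    (h : W.Equation u y) :
    (2 * y + W.a₁ * u + W.a₃) ^ 2 = (u - e) * (4 * (u - e) ^ 2 + β * (u - e) + 4 * κ) := by
  rw [Affine.equation_iff] at h
  subst hβ
  simp only [WeierstrassCurve.b₂, WeierstrassCurve.b₄, WeierstrassCurve.b₆] at he hκ ⊢
  linear_combination 4 * h + he - 2 * (u - e) * hκ

/-- abscissa of a sum, `x₁ ≠ x₂` -/
lemma addX_mul {u₁ u₂ y₁ y₂ : F} (e : F) (hd : u₁ ≠ u₂) :
    (W.addX u₁ u₂ (W.slope u₁ u₂ y₁ y₂) - e) * (4 * (u₁ - u₂) ^ 2) =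
      ((2 * y₁ + W.a₁ * u₁ + W.a₃) - (2 * y₂ + W.a₁ * u₂ + W.a₃)) ^ 2
        - (W.b₂ + 4 * (u₁ + u₂ + e)) * (u₁ - u₂) ^ 2 := by
  have hd' : u₁ - u₂ ≠ 0 := sub_ne_zero.mpr hd
  rw [Affine.slope_of_X_ne hd, Affine.addX, WeierstrassCurve.b₂]
  field_simp
  ring

/-- abscissa of a double -/
lemma dblX_mul {u y : F} (e : F) (hy : y ≠ W.negY u y) :
    (W.addX u u (W.slope u u y y) - e) * (4 * (2 * y + W.a₁ * u + W.a₃) ^ 2) =
      (6 * u ^ 2 + W.b₂ * u + W.b₄) ^ 2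
        - (W.b₂ + 4 * (u + u + e)) * (2 * y + W.a₁ * u + W.a₃) ^ 2 := by
  have hd' : y - W.negY u y ≠ 0 := sub_ne_zero.mpr hy
  have hd3 : y - W.negY u y = 2 * y + W.a₁ * u + W.a₃ := by rw [Affine.negY]; ring
  have hℓ : W.slope u u y y * (2 * y + W.a₁ * u + W.a₃) =
      3 * u ^ 2 + 2 * W.a₂ * u + W.a₄ - W.a₁ * y := by
    rw [Affine.slope_of_Y_ne rfl hy, ← hd3, div_mul_cancel₀ _ hd']
  rw [Affine.addX, WeierstrassCurve.b₂, WeierstrassCurve.b₄]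
  generalize W.slope u u y y = ℓ at *
  linear_combination (4 * (ℓ * (2 * y + W.a₁ * u + W.a₃) +
    (3 * u ^ 2 + 2 * W.a₂ * u + W.a₄ - W.a₁ * y)) + 4 * W.a₁ * (2 * y + W.a₁ * u + W.a₃)) * hℓ

omit [DecidableEq F] in
/-- pure algebra: sum formula -/
lemma sum_aux (h2 : (2 : F) ≠ 0) {X Y x₁ x₂ η₁ η₂ β κ : F}
    (hX : X * (4 * (x₁ - x₂) ^ 2) = (η₁ - η₂) ^ 2 - (β + 4 * (x₁ + x₂)) * (x₁ - x₂) ^ 2)
    (hY : Y * (4 * (x₁ - x₂) ^ 2) = (η₁ + η₂) ^ 2 - (β + 4 * (x₁ + x₂)) * (x₁ - x₂) ^ 2)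
    (h₁ : η₁ ^ 2 = x₁ * (4 * x₁ ^ 2 + β * x₁ + 4 * κ))
    (h₂ : η₂ ^ 2 = x₂ * (4 * x₂ ^ 2 + β * x₂ + 4 * κ)) :
    (X + Y) * (x₁ - x₂) ^ 2 = (x₁ + x₂) * (2 * x₁ * x₂ + 2 * κ) + β * x₁ * x₂ := by
  have h4 : (4 : F) ≠ 0 := by
    have : (4 : F) = 2 * 2 := by norm_num
    rw [this]; exact mul_ne_zero h2 h2
  apply mul_left_cancel₀ h4
  linear_combination hX + hY + 2 * h₁ + 2 * h₂

omit [DecidableEq F] in
/-- pure algebra: product formula -/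
lemma prod_aux (h2 : (2 : F) ≠ 0) {X Y x₁ x₂ η₁ η₂ β κ : F} (hd : x₁ ≠ x₂)
    (hX : X * (4 * (x₁ - x₂) ^ 2) = (η₁ - η₂) ^ 2 - (β + 4 * (x₁ + x₂)) * (x₁ - x₂) ^ 2)
    (hY : Y * (4 * (x₁ - x₂) ^ 2) = (η₁ + η₂) ^ 2 - (β + 4 * (x₁ + x₂)) * (x₁ - x₂) ^ 2)
    (h₁ : η₁ ^ 2 = x₁ * (4 * x₁ ^ 2 + β * x₁ + 4 * κ))
    (h₂ : η₂ ^ 2 = x₂ * (4 * x₂ ^ 2 + β * x₂ + 4 * κ)) :
    X * Y * (x₁ - x₂) ^ 2 = (x₁ * x₂ - κ) ^ 2 := by
  have h4 : (4 : F) ≠ 0 := by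
    have : (4 : F) = 2 * 2 := by norm_num
    rw [this]; exact mul_ne_zero h2 h2
  have hd' : x₁ - x₂ ≠ 0 := sub_ne_zero.mpr hd
  have hne : (4 * 4 * (x₁ - x₂) ^ 2 : F) ≠ 0 :=
    mul_ne_zero (mul_ne_zero h4 h4) (pow_ne_zero 2 hd')
  apply mul_left_cancel₀ hne
  linear_combination (Y * (4 * (x₁ - x₂) ^ 2)) * hX +
    ((η₁ - η₂) ^ 2 - (β + 4 * (x₁ + x₂)) * (x₁ - x₂) ^ 2) * hY +
    ((η₁ ^ 2 - η₂ ^ 2 + x₁ * (4 * x₁ ^ 2 + β * x₁ + 4 * κ) - x₂ * (4 * x₂ ^ 2 + β * x₂ + 4 * κ))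
      - 2 * (β + 4 * (x₁ + x₂)) * (x₁ - x₂) ^ 2) * h₁ +
    (-(η₁ ^ 2 - η₂ ^ 2 + x₁ * (4 * x₁ ^ 2 + β * x₁ + 4 * κ) - x₂ * (4 * x₂ ^ 2 + β * x₂ + 4 * κ))
      - 2 * (β + 4 * (x₁ + x₂)) * (x₁ - x₂) ^ 2) * h₂

omit [DecidableEq F] in
/-- pure algebra: duplication formula -/
lemma dbl_aux (h2 : (2 : F) ≠ 0) {X x η β κ : F}
    (hX : X * (4 * η ^ 2) = (6 * x ^ 2 + β * x + 2 * κ) ^ 2 - (β + 8 * x) * η ^ 2)
    (h₁ : η ^ 2 = x * (4 * x ^ 2 + β * x + 4 * κ)) :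
    X * (x * (4 * x ^ 2 + β * x + 4 * κ)) = (x ^ 2 - κ) ^ 2 := by
  have h4 : (4 : F) ≠ 0 := by
    have : (4 : F) = 2 * 2 := by norm_num
    rw [this]; exact mul_ne_zero h2 h2
  apply mul_left_cancel₀ h4
  linear_combination hX + (- 4 * X - (β + 8 * x)) * h₁

end KummerAux

/-- The Kummer data of a Weierstrass curve with a 2-torsion abscissa `e`, coordinate `ξ = x - e`. -/
noncomputable def kummerOf (W : WeierstrassCurve.Affine F) (e : F) (h2 : (2 : F) ≠ 0)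
    (he : 4 * e ^ 3 + W.b₂ * e ^ 2 + 2 * W.b₄ * e + W.b₆ = 0) : KummerData F W.Point where
  ξ := fun P => match P with
    | .zero => none
    | .some x _ _ => some (x - e)
  η := fun P => match P with
    | .zero => 0
    | .some x y _ => 2 * y + W.a₁ * x + W.a₃
  β := W.b₂ + 12 * e
  κ := (W.b₄ + W.b₂ * e + 6 * e ^ 2) / 2
  ξ_eq_none := by
    rintro (_ | ⟨x, y, h⟩)
    · exact ⟨fun _ => rfl, fun _ => rfl⟩
    · exact ⟨fun h' => by simp at h', fun h' => absurd h' (Point.some_ne_zero h)⟩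
  ξ_neg := by
    rintro (_ | ⟨x, y, h⟩)
    · rfl
    · rfl
  η_neg := by
    rintro (_ | ⟨x, y, h⟩)
    · exact neg_zero.symm
    · change 2 * W.negY x y + W.a₁ * x + W.a₃ = -(2 * y + W.a₁ * x + W.a₃)
      rw [Affine.negY]
      ring
  eq_or_eq_neg := by
    rintro (_ | ⟨x, y, h⟩) (_ | ⟨x', y', h'⟩) hh
    · exact Or.inl rfl
    · simp at hh
    · simp at hh
    · have hx : x = x' := by
        have := Option.some.inj hh
        exact sub_left_injective this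
      exact Point.X_eq_iff.mp hx
  η_sq := by
    rintro (_ | ⟨u, y, h⟩) x hx
    · simp at hx
    · have hx' : u - e = x := Option.some.inj hx
      subst hx'
      exact KummerAux.eta_sq W he rfl (mul_div_cancel₀ _ h2) h.1
  addsub := by
    rintro (_ | ⟨u₁, y₁, h₁⟩) (_ | ⟨u₂, y₂, h₂⟩) x₁ x₂ hx₁ hx₂ hne
    · simp at hx₁
    · simp at hx₁
    · simp at hx₂
    · have hx₁' : u₁ - e = x₁ := Option.some.inj hx₁
      have hx₂' : u₂ - e = x₂ := Option.some.inj hx₂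
      subst hx₁' hx₂'
      have hu : u₁ ≠ u₂ := fun h => hne (by rw [h])
      have hκ : 2 * ((W.b₄ + W.b₂ * e + 6 * e ^ 2) / 2) = W.b₄ + W.b₂ * e + 6 * e ^ 2 :=
        mul_div_cancel₀ _ h2
      have e₁ := KummerAux.eta_sq W he rfl hκ h₁.1
      have e₂ := KummerAux.eta_sq W he rfl hκ h₂.1
      have hX := KummerAux.addX_mul W (y₁ := y₁) (y₂ := y₂) e hu
      have hY := KummerAux.addX_mul W (y₁ := y₁) (y₂ := W.negY u₂ y₂) e hu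
      have hX' : (W.addX u₁ u₂ (W.slope u₁ u₂ y₁ y₂) - e) * (4 * ((u₁ - e) - (u₂ - e)) ^ 2) =
          ((2 * y₁ + W.a₁ * u₁ + W.a₃) - (2 * y₂ + W.a₁ * u₂ + W.a₃)) ^ 2
          - ((W.b₂ + 12 * e) + 4 * ((u₁ - e) + (u₂ - e))) * ((u₁ - e) - (u₂ - e)) ^ 2 := by
        linear_combination hX
      have hY' : (W.addX u₁ u₂ (W.slope u₁ u₂ y₁ (W.negY u₂ y₂)) - e) *
          (4 * ((u₁ - e) - (u₂ - e)) ^ 2) =
          ((2 * y₁ + W.a₁ * u₁ + W.a₃) + (2 * y₂ + W.a₁ * u₂ + W.a₃)) ^ 2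
          - ((W.b₂ + 12 * e) + 4 * ((u₁ - e) + (u₂ - e))) * ((u₁ - e) - (u₂ - e)) ^ 2 := by
        rw [Affine.negY] at hY ⊢
        linear_combination hY
      refine ⟨W.addX u₁ u₂ (W.slope u₁ u₂ y₁ y₂) - e,
        W.addX u₁ u₂ (W.slope u₁ u₂ y₁ (W.negY u₂ y₂)) - e, ?_, ?_,
        KummerAux.prod_aux h2 hne hX' hY' e₁ e₂, KummerAux.sum_aux h2 hX' hY' e₁ e₂⟩
      · rw [Point.add_of_X_ne hu]
      · rw [sub_eq_add_neg, Point.neg_some, Point.add_of_X_ne hu]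
  dbl_zero := by
    rintro (_ | ⟨u, y, h⟩) hη
    · exact add_zero _
    · apply Point.add_self_of_Y_eq
      rw [Affine.negY]
      have hη' : 2 * y + W.a₁ * u + W.a₃ = 0 := hη
      linear_combination hη'
  dbl := by
    rintro (_ | ⟨u, y, h⟩) x hx hη
    · simp at hx
    · have hx' : u - e = x := Option.some.inj hx
      subst hx'
      have hη' : 2 * y + W.a₁ * u + W.a₃ ≠ 0 := hη
      have hy : y ≠ W.negY u y := by
        intro hy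
        apply hη'
        rw [Affine.negY] at hy
        linear_combination hy
      have hκ : 2 * ((W.b₄ + W.b₂ * e + 6 * e ^ 2) / 2) = W.b₄ + W.b₂ * e + 6 * e ^ 2 :=
        mul_div_cancel₀ _ h2
      have e₁ := KummerAux.eta_sq W he rfl hκ h.1
      have hX := KummerAux.dblX_mul W e hy
      have hX' : (W.addX u u (W.slope u u y y) - e) * (4 * (2 * y + W.a₁ * u + W.a₃) ^ 2) =
          (6 * (u - e) ^ 2 + (W.b₂ + 12 * e) * (u - e) +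
            2 * ((W.b₄ + W.b₂ * e + 6 * e ^ 2) / 2)) ^ 2
          - ((W.b₂ + 12 * e) + 8 * (u - e)) * (2 * y + W.a₁ * u + W.a₃) ^ 2 := by
        rw [hκ]
        linear_combination hX
      refine ⟨W.addX u u (W.slope u u y y) - e, ?_, KummerAux.dbl_aux h2 hX' e₁⟩
      rw [Point.add_self_of_Y_ne hy]

end Fermat.Agent.S05
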