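import Fermat.Agent.S05.Defs
import Fermat.Prelude.Def_FLTPrelim_Ramification

set_option autoImplicit false

namespace Fermat.Agent.S05.Valuation

local notation "Qbar" => AlgebraicClosure ℚ

theorem isAlgebraicQbar : Algebra.IsAlgebraic ℚ Qbar := AlgebraicClosure.isAlgebraic ℚ

variable (A : ValuationSubring Qbar) {q : ℕ}

/-- integers prime to `q` are units -/
theorem val_int_eq_one (hq : q.Prime) (hA : A.LiesOverPrime q) {n : ℤ} (hn : ¬ (q : ℤ) ∣ n) :
    A.valuation (n : Qbar) = 1 := by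
  have hqv : A.valuation (q : Qbar) < 1 := (ValuationSubring.mem_nonunits_iff A).mp hA
  have hle : ∀ m : ℤ, A.valuation (m : Qbar) ≤ 1 := fun m =>
    (A.valuation_le_one_iff _).mpr (intCast_mem A m)
  have hcop : IsCoprime (q : ℤ) n :=
    ((Nat.prime_iff_prime_int.mp hq).coprime_iff_not_dvd).mpr hn
  obtain ⟨a, b, hab⟩ := hcop
  by_contra hne
  have hlt : A.valuation (n : Qbar) < 1 := lt_of_le_of_ne (hle n) hne
  have h1 : (1 : Qbar) = (a : Qbar) * (q : Qbar) + (b : Qbar) * (n : Qbar) := by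
    have := congrArg (fun z : ℤ => (z : Qbar)) hab
    push_cast at this
    exact this.symm
  have h2 : A.valuation (1 : Qbar) < 1 := by
    rw [h1]
    refine A.valuation.map_add_lt ?_ ?_
    · rw [map_mul, mul_comm]
      exact mul_lt_one_of_lt_of_le hqv (hle a)
    · rw [map_mul, mul_comm]
      exact mul_lt_one_of_lt_of_le hlt (hle b)
  rw [map_one] at h2
  exact lt_irrefl _ h2

theorem val_q_ne_zero (hq : q.Prime) : A.valuation (q : Qbar) ≠ 0 := by
  rw [Valuation.ne_zero_iff]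
  exact_mod_cast hq.ne_zero

theorem val_int (hq : q.Prime) (hA : A.LiesOverPrime q) {n : ℤ} (hn : n ≠ 0) :
    ∃ k : ℕ, A.valuation (n : Qbar) = A.valuation (q : Qbar) ^ k := by
  have hfin : FiniteMultiplicity (q : ℤ) n := by
    rw [Int.finiteMultiplicity_iff]
    refine ⟨?_, hn⟩
    simpa using hq.ne_one
  obtain ⟨c, hc1, hc2⟩ := hfin.exists_eq_pow_mul_and_not_dvd
  refine ⟨multiplicity (q : ℤ) n, ?_⟩
  conv_lhs => rw [hc1]
  push_cast
  rw [map_mul, map_pow, val_int_eq_one A hq hA hc2, mul_one]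

theorem val_rat (hq : q.Prime) (hA : A.LiesOverPrime q) {r : ℚ} (hr : r ≠ 0) :
    ∃ k : ℤ, A.valuation (algebraMap ℚ Qbar r) = A.valuation (q : Qbar) ^ k := by
  obtain ⟨k1, h1⟩ := val_int A hq hA (n := r.num) (Rat.num_ne_zero.mpr hr)
  obtain ⟨k2, h2⟩ := val_int A hq hA (n := (r.den : ℤ)) (by exact_mod_cast r.den_nz)
  refine ⟨(k1 : ℤ) - k2, ?_⟩
  have hr' : algebraMap ℚ Qbar r = (r.num : Qbar) / ((r.den : ℤ) : Qbar) := by
    conv_lhs => rw [← Rat.num_div_den r]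
    rw [map_div₀]
    simp
  rw [hr', map_div₀, h1, h2, zpow_sub₀ (val_q_ne_zero A hq)]
  simp

theorem exists_pow_eq (hq : q.Prime) (hA : A.LiesOverPrime q) {x : Qbar} (hx : x ≠ 0) :
    ∃ (n : ℕ) (k : ℤ), 0 < n ∧ A.valuation x ^ n = A.valuation (q : Qbar) ^ k := by
  classical
  obtain ⟨p, hp0, hpx⟩ := isAlgebraicQbar.isAlgebraic x
  have hq0 := val_q_ne_zero A hq
  have hx0 : A.valuation x ≠ 0 := (Valuation.ne_zero_iff _).mpr hx
  set f : ℕ → Qbar := fun i => algebraMap ℚ Qbar (p.coeff i) * x ^ i with hf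
  have hsum : ∑ i ∈ p.support, f i = 0 := by
    rw [Polynomial.aeval_def, Polynomial.eval₂_eq_sum, Polynomial.sum_def] at hpx
    exact hpx
  have hne : p.support.Nonempty := Polynomial.nonempty_support_iff.mpr hp0
  have hfne : ∀ i ∈ p.support, A.valuation (f i) ≠ 0 := by
    intro i hi
    rw [Valuation.ne_zero_iff]
    refine mul_ne_zero ?_ (pow_ne_zero _ hx)
    rw [Ne, map_eq_zero]
    exact Polynomial.mem_support_iff.mp hi
  obtain ⟨i0, hi0, hmax⟩ := Finset.exists_max_image p.support (fun i => A.valuation (f i)) hne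
  have hex : ∃ j ∈ p.support \ {i0}, A.valuation (f j) = A.valuation (f i0) := by
    by_contra hcon
    push Not at hcon
    have hlt : ∀ j ∈ p.support \ {i0}, A.valuation (f j) < A.valuation (f i0) := by
      intro j hj
      exact lt_of_le_of_ne (hmax j (Finset.mem_sdiff.mp hj).1) (hcon j hj)
    have := A.valuation.map_sum_eq_of_lt hi0 hlt
    rw [hsum, map_zero] at this
    exact hfne i0 hi0 this.symm
  obtain ⟨j, hj, hjeq⟩ := hex
  have hjs : j ∈ p.support := (Finset.mem_sdiff.mp hj).1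
  have hji : j ≠ i0 := by
    have := (Finset.mem_sdiff.mp hj).2
    simpa using this
  obtain ⟨kj, hkj⟩ := val_rat A hq hA (Polynomial.mem_support_iff.mp hjs)
  obtain ⟨ki, hki⟩ := val_rat A hq hA (Polynomial.mem_support_iff.mp hi0)
  simp only [hf, map_mul, map_pow, hkj, hki] at hjeq
  -- general statement
  have gen : ∀ (a b : ℕ) (ka kb : ℤ), a < b →
      A.valuation (q : Qbar) ^ ka * A.valuation x ^ a = A.valuation (q : Qbar) ^ kb * A.valuation x ^ b →
      ∃ (n : ℕ) (k : ℤ), 0 < n ∧ A.valuation x ^ n = A.valuation (q : Qbar) ^ k := by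
    intro a b ka kb hab h
    refine ⟨b - a, ka - kb, Nat.sub_pos_of_lt hab, ?_⟩
    have hb : b = (b - a) + a := by omega
    rw [hb, pow_add, ← mul_assoc] at h
    have h2 := mul_right_cancel₀ (pow_ne_zero a hx0) h
    rw [zpow_sub₀ hq0, h2]
    field_simp
  rcases lt_or_gt_of_ne hji with h | h
  · exact gen j i0 kj ki h hjeq
  · exact gen i0 j ki kj h hjeq.symm

open Classical in
noncomputable def ord (hq : q.Prime) (hA : A.LiesOverPrime q) (x : Qbar) : ℝ :=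
  if hx : x = 0 then 0 else
    (((exists_pow_eq A hq hA hx).choose_spec.choose : ℤ) : ℝ) /
      ((exists_pow_eq A hq hA hx).choose : ℝ)

theorem zpow_q_inj (hq : q.Prime) (hA : A.LiesOverPrime q) {a b : ℤ}
    (h : A.valuation (q : Qbar) ^ a = A.valuation (q : Qbar) ^ b) : a = b := by
  have hqv : A.valuation (q : Qbar) < 1 := (ValuationSubring.mem_nonunits_iff A).mp hA
  exact zpow_right_injective₀ (zero_lt_iff.mpr (val_q_ne_zero A hq)) hqv.ne h

theorem ord_eq (hq : q.Prime) (hA : A.LiesOverPrime q) {x : Qbar} (hx : x ≠ 0) {n : ℕ} {k : ℤ}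
    (hn : 0 < n) (h : A.valuation x ^ n = A.valuation (q : Qbar) ^ k) :
    ord A hq hA x = (k : ℝ) / (n : ℝ) := by
  rw [ord, dif_neg hx]
  set n0 := (exists_pow_eq A hq hA hx).choose with hn0
  set k0 := (exists_pow_eq A hq hA hx).choose_spec.choose with hk0
  obtain ⟨hpos, h0⟩ := (exists_pow_eq A hq hA hx).choose_spec.choose_spec
  have key : k0 * n = k * n0 := by
    apply zpow_q_inj A hq hA
    rw [zpow_mul, zpow_mul, ← h0, ← h, zpow_natCast, zpow_natCast, ← pow_mul, ← pow_mul, mul_comm]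
  have hn' : (n : ℝ) ≠ 0 := by positivity
  have hn0' : (n0 : ℝ) ≠ 0 := by
    have : 0 < n0 := hpos
    positivity
  rw [div_eq_div_iff hn0' hn']
  exact_mod_cast key

theorem ord_nonneg_iff (hq : q.Prime) (hA : A.LiesOverPrime q) {x : Qbar} (hx : x ≠ 0) :
    0 ≤ ord A hq hA x ↔ x ∈ A := by
  obtain ⟨n, k, hn, h⟩ := exists_pow_eq A hq hA hx
  have hqv : A.valuation (q : Qbar) < 1 := (ValuationSubring.mem_nonunits_iff A).mp hA
  have hq0 : 0 < A.valuation (q : Qbar) := zero_lt_iff.mpr (val_q_ne_zero A hq)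
  rw [ord_eq A hq hA hx hn h, ← A.valuation_le_one_iff]
  have hn' : (0 : ℝ) < n := by positivity
  have h0 : (0 : ℝ) ≤ (k : ℝ) / n ↔ (0 : ℝ) ≤ k := by
    constructor
    · intro hh
      by_contra hneg
      exact absurd hh (not_le.mpr (div_neg_of_neg_of_pos (not_le.mp hneg) hn'))
    · intro hh
      positivity
  rw [h0]
  have h1 : A.valuation x ≤ 1 ↔ A.valuation x ^ n ≤ 1 := (pow_le_one_iff hn.ne').symm
  rw [h1, h]
  constructor
  · intro hk
    have hk' : 0 ≤ k := by exact_mod_cast hk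
    exact zpow_le_one₀ hq0 hqv.le hk'
  · intro hk
    by_contra hneg
    have hk' : k < 0 := by
      by_contra hh
      exact hneg (by exact_mod_cast (not_lt.mp hh))
    have := one_lt_zpow_of_neg₀ hq0 hqv hk'
    exact absurd hk (not_le.mpr this)

theorem ord_mul (hq : q.Prime) (hA : A.LiesOverPrime q) {x y : Qbar} (hx : x ≠ 0) (hy : y ≠ 0) :
    ord A hq hA (x * y) = ord A hq hA x + ord A hq hA y := by
  obtain ⟨n, k, hn, h⟩ := exists_pow_eq A hq hA hx
  obtain ⟨n', k', hn', h'⟩ := exists_pow_eq A hq hA hy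
  have hq0 := val_q_ne_zero A hq
  have hxy : A.valuation (x * y) ^ (n * n') = A.valuation (q : Qbar) ^ (k * n' + k' * n) := by
    rw [map_mul, mul_pow, pow_mul, h, mul_comm n n', pow_mul, h', zpow_add₀ hq0, zpow_mul, zpow_mul,
      zpow_natCast, zpow_natCast]
  rw [ord_eq A hq hA hx hn h, ord_eq A hq hA hy hn' h',
    ord_eq A hq hA (mul_ne_zero hx hy) (Nat.mul_pos hn hn') hxy]
  have h1 : (n : ℝ) ≠ 0 := by positivity
  have h2 : (n' : ℝ) ≠ 0 := by positivity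
  push_cast
  field_simp

theorem ord_add (hq : q.Prime) (hA : A.LiesOverPrime q) {x y : Qbar} (hx : x ≠ 0) (hy : y ≠ 0)
    (hxy : x + y ≠ 0) :
    min (ord A hq hA x) (ord A hq hA y) ≤ ord A hq hA (x + y) := by
  have key : ∀ x y : Qbar, x ≠ 0 → y ≠ 0 → x + y ≠ 0 → ord A hq hA x ≤ ord A hq hA y →
      ord A hq hA x ≤ ord A hq hA (x + y) := by
    intro x y hx hy hxy hle
    have hyx : y / x ≠ 0 := div_ne_zero hy hx
    have h1 : ord A hq hA y = ord A hq hA x + ord A hq hA (y / x) := by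
      rw [← ord_mul A hq hA hx hyx]
      congr 1
      field_simp
    have h2 : y / x ∈ A := (ord_nonneg_iff A hq hA hyx).mp (by linarith)
    have h3 : 1 + y / x ∈ A := A.add_mem _ _ A.one_mem h2
    have h4 : 1 + y / x ≠ 0 := by
      intro h0
      apply hxy
      have : x + y = x * (1 + y / x) := by field_simp
      rw [this, h0, mul_zero]
    have h5 : ord A hq hA (x + y) = ord A hq hA x + ord A hq hA (1 + y / x) := by
      rw [← ord_mul A hq hA hx h4]
      congr 1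
      field_simp
    have h6 := (ord_nonneg_iff A hq hA h4).mpr h3
    linarith
  rcases le_total (ord A hq hA x) (ord A hq hA y) with h | h
  · rw [min_eq_left h]
    exact key x y hx hy hxy h
  · rw [min_eq_right h, add_comm]
    exact key y x hy hx (by rwa [add_comm]) h

open scoped Pointwise in
theorem apply_mem_iff {σ : Qbar ≃ₐ[ℚ] Qbar} (hσ : σ ∈ A.decompositionSubgroup ℚ) (x : Qbar) :
    σ x ∈ A ↔ x ∈ A := by
  have h : σ • A = A := hσ
  have h2 : σ x ∈ σ • A ↔ x ∈ A :=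
    ValuationSubring.smul_mem_pointwise_smul_iff (g := σ) (S := A) (x := x)
  rwa [h] at h2

theorem mem_decomposition_of_mem_inertia {σ : Qbar ≃ₐ[ℚ] Qbar} (hσ : σ ∈ A.inertiaSubgroupIn ℚ) :
    σ ∈ A.decompositionSubgroup ℚ := by
  obtain ⟨τ, -, rfl⟩ := Subgroup.mem_map.mp hσ
  exact τ.2

theorem exists_pow_apply_eq (σ : Qbar ≃ₐ[ℚ] Qbar) (x : Qbar) :
    ∃ i j : ℕ, i ≠ j ∧ (σ ^ i) x = (σ ^ j) x := by
  obtain ⟨p, hp0, hpx⟩ := isAlgebraicQbar.isAlgebraic x
  have hmem : ∀ k : ℕ, (σ ^ k) x ∈ p.rootSet Qbar := by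
    intro k
    rw [Polynomial.mem_rootSet]
    refine ⟨hp0, ?_⟩
    have := Polynomial.aeval_algHom_apply ((σ ^ k : Qbar ≃ₐ[ℚ] Qbar) : Qbar →ₐ[ℚ] Qbar) x p
    rw [hpx, map_zero] at this
    exact this
  obtain ⟨i, j, hij, h⟩ := Finite.exists_ne_map_eq_of_infinite
    (fun k : ℕ => (⟨(σ ^ k) x, hmem k⟩ : p.rootSet Qbar))
  exact ⟨i, j, hij, congrArg Subtype.val h⟩

end Fermat.Agent.S05.Valuation

namespace Fermat.Agent.S05

open _root_.Fermat.Agent.S05.Valuation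

theorem exists_rval (A : ValuationSubring (AlgebraicClosure ℚ)) {q : ℕ} (hq : q.Prime)
    (hA : A.LiesOverPrime q) :
    ∃ v : RVal (AlgebraicClosure ℚ), ∀ x : AlgebraicClosure ℚ, x ≠ 0 → (0 ≤ v.w x ↔ x ∈ A) :=
  ⟨{ w := ord A hq hA
     map_mul := fun _ _ hx hy => ord_mul A hq hA hx hy
     map_add := fun _ _ hx hy hxy => ord_add A hq hA hx hy hxy },
    fun _ hx => ord_nonneg_iff A hq hA hx⟩

variable {A : ValuationSubring (AlgebraicClosure ℚ)} {q : ℕ}
  {v : RVal (AlgebraicClosure ℚ)}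

theorem rval_pos_iff (hv : ∀ x : AlgebraicClosure ℚ, x ≠ 0 → (0 ≤ v.w x ↔ x ∈ A))
    {x : AlgebraicClosure ℚ} (hx : x ≠ 0) : 0 < v.w x ↔ x⁻¹ ∉ A := by
  rw [← hv _ (inv_ne_zero hx), RVal.w_inv hx]
  constructor
  · intro h h'
    linarith
  · intro h
    by_contra h'
    exact h (by linarith)

theorem rval_int_unit (hq : q.Prime) (hA : A.LiesOverPrime q)
    (hv : ∀ x : AlgebraicClosure ℚ, x ≠ 0 → (0 ≤ v.w x ↔ x ∈ A))
    {n : ℤ} (hn : ¬ (q : ℤ) ∣ n) : v.EQ (n : AlgebraicClosure ℚ) 0 := by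
  have hn0 : n ≠ 0 := by
    rintro rfl
    exact hn (dvd_zero _)
  have hn0' : (n : AlgebraicClosure ℚ) ≠ 0 := by exact_mod_cast hn0
  have h1 := val_int_eq_one A hq hA hn
  have h2 : (n : AlgebraicClosure ℚ) ∈ A := intCast_mem A n
  have h3 : (n : AlgebraicClosure ℚ)⁻¹ ∈ A := by
    rw [← A.valuation_le_one_iff, map_inv₀, h1, inv_one]
  have h4 := (hv _ hn0').mpr h2
  have h5 := (hv _ (inv_ne_zero hn0')).mpr h3
  rw [RVal.w_inv hn0'] at h5
  exact ⟨hn0', by linarith⟩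

theorem rval_int_pos (hq : q.Prime) (hA : A.LiesOverPrime q)
    (hv : ∀ x : AlgebraicClosure ℚ, x ≠ 0 → (0 ≤ v.w x ↔ x ∈ A))
    {n : ℤ} (hn0 : n ≠ 0) (hn : (q : ℤ) ∣ n) : 0 < v.w (n : AlgebraicClosure ℚ) := by
  obtain ⟨m, rfl⟩ := hn
  have hm0 : m ≠ 0 := right_ne_zero_of_mul hn0
  have hm0' : (m : AlgebraicClosure ℚ) ≠ 0 := by exact_mod_cast hm0
  have hq0' : (q : AlgebraicClosure ℚ) ≠ 0 := by exact_mod_cast hq.ne_zero
  have h1 : 0 < v.w (q : AlgebraicClosure ℚ) := by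
    rw [rval_pos_iff hv hq0']
    exact ((ValuationSubring.mem_nonunits_iff_or A).mp hA).resolve_left hq0'
  have h2 := (hv _ hm0').mpr (intCast_mem A m)
  push_cast
  rw [v.map_mul _ _ hq0' hm0']
  linarith

theorem rval_pos_apply (hv : ∀ x : AlgebraicClosure ℚ, x ≠ 0 → (0 ≤ v.w x ↔ x ∈ A))
    {σ : AlgebraicClosure ℚ ≃ₐ[ℚ] AlgebraicClosure ℚ} (hσ : σ ∈ A.decompositionSubgroup ℚ)
    {y : AlgebraicClosure ℚ} (hy : y ≠ 0) (h : 0 < v.w y) : 0 < v.w (σ y) := by
  have hσy : σ y ≠ 0 := (map_ne_zero σ).mpr hy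
  rw [rval_pos_iff hv hσy, ← map_inv₀, apply_mem_iff A hσ]
  exact (rval_pos_iff hv hy).mp h

theorem rval_not_lt_apply (hv : ∀ x : AlgebraicClosure ℚ, x ≠ 0 → (0 ≤ v.w x ↔ x ∈ A))
    {σ : AlgebraicClosure ℚ ≃ₐ[ℚ] AlgebraicClosure ℚ} (hσ : σ ∈ A.decompositionSubgroup ℚ)
    {x : AlgebraicClosure ℚ} (hx : x ≠ 0) : ¬ v.w x < v.w (σ x) := by
  intro hlt
  have hσx : σ x ≠ 0 := (map_ne_zero σ).mpr hx
  have hy : σ x / x ≠ 0 := div_ne_zero hσx hx
  have hypos : 0 < v.w (σ x / x) := by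
    rw [RVal.w_div hσx hx]
    linarith
  have hmono : StrictMono (fun k : ℕ => v.w ((σ ^ k) x)) := by
    apply strictMono_nat_of_lt_succ
    intro k
    have hk : σ ^ k ∈ A.decompositionSubgroup ℚ := Subgroup.pow_mem _ hσ k
    have h1 := rval_pos_apply hv hk hy hypos
    have hkx : (σ ^ k) x ≠ 0 := (map_ne_zero _).mpr hx
    have hkx' : (σ ^ k) (σ x) ≠ 0 := (map_ne_zero _).mpr hσx
    rw [map_div₀, RVal.w_div hkx' hkx] at h1
    have h2 : (σ ^ (k + 1)) x = (σ ^ k) (σ x) := by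
      rw [pow_succ]
      rfl
    show v.w ((σ ^ k) x) < v.w ((σ ^ (k + 1)) x)
    rw [h2]
    linarith
  obtain ⟨i, j, hij, h⟩ := exists_pow_apply_eq σ x
  exact hij (hmono.injective (congrArg v.w h))

theorem rval_decomposition_w (hv : ∀ x : AlgebraicClosure ℚ, x ≠ 0 → (0 ≤ v.w x ↔ x ∈ A))
    {σ : AlgebraicClosure ℚ ≃ₐ[ℚ] AlgebraicClosure ℚ} (hσ : σ ∈ A.decompositionSubgroup ℚ)
    (x : AlgebraicClosure ℚ) : v.w (σ x) = v.w x := by
  by_cases hx : x = 0
  · rw [hx, map_zero]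
  have hσx : σ x ≠ 0 := (map_ne_zero σ).mpr hx
  have h1 := rval_not_lt_apply hv hσ hx
  have h2 := rval_not_lt_apply hv (Subgroup.inv_mem _ hσ) hσx
  have h3 : σ⁻¹ (σ x) = x := by
    show σ.symm (σ x) = x
    exact σ.symm_apply_apply x
  rw [h3] at h2
  linarith

theorem rval_inertia_w (hv : ∀ x : AlgebraicClosure ℚ, x ≠ 0 → (0 ≤ v.w x ↔ x ∈ A))
    {σ : AlgebraicClosure ℚ ≃ₐ[ℚ] AlgebraicClosure ℚ} (hσ : σ ∈ A.inertiaSubgroupIn ℚ)
    (x : AlgebraicClosure ℚ) : v.w (σ x) = v.w x :=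
  rval_decomposition_w hv (mem_decomposition_of_mem_inertia A hσ) x

theorem rval_inertia_sub (hv : ∀ x : AlgebraicClosure ℚ, x ≠ 0 → (0 ≤ v.w x ↔ x ∈ A))
    {σ : AlgebraicClosure ℚ ≃ₐ[ℚ] AlgebraicClosure ℚ} (hσ : σ ∈ A.inertiaSubgroupIn ℚ)
    {x : AlgebraicClosure ℚ} (hx : v.GE x 0) : v.GT (σ x - x) 0 := by
  by_cases hx0 : x = 0
  · left
    rw [hx0, map_zero, sub_zero]
  have hxA : x ∈ A := (hv x hx0).mp (hx.le_w hx0)
  obtain ⟨τ, hτ, rfl⟩ := Subgroup.mem_map.mp hσ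
  by_cases hd : (A.decompositionSubgroup ℚ).subtype τ x - x = 0
  · exact Or.inl hd
  right
  rw [rval_pos_iff hv hd]
  have hker : MulSemiringAction.toRingAut (A.decompositionSubgroup ℚ)
      (IsLocalRing.ResidueField A) τ = 1 := hτ
  have h1 : τ • IsLocalRing.residue A ⟨x, hxA⟩ = IsLocalRing.residue A ⟨x, hxA⟩ := by
    have := congrArg (fun f : RingAut (IsLocalRing.ResidueField A) =>
      f (IsLocalRing.residue A ⟨x, hxA⟩)) hker
    exact this
  rw [← IsLocalRing.ResidueField.residue_smul, ← sub_eq_zero, ← map_sub,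
    IsLocalRing.residue_eq_zero_iff] at h1
  have h2 : (((τ • (⟨x, hxA⟩ : A) - ⟨x, hxA⟩ : A)) : AlgebraicClosure ℚ) ∈ A.nonunits :=
    ValuationSubring.coe_mem_nonunits_iff.mpr h1
  have h3 := ((ValuationSubring.mem_nonunits_iff_or A).mp h2).resolve_left hd
  exact h3

end Fermat.Agent.S05
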