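import Fermat.Agent.S05.Abstract
import Fermat.Agent.S05.Kummer
import Fermat.Agent.S05.Valuation
import Fermat.Statements.S05

set_option autoImplicit false

namespace Fermat.Agent.S05

open WeierstrassCurve WeierstrassCurve.Affine WeierstrassCurve.Affine.Point

local notation "Qb" => AlgebraicClosure ℚ

variable (P : FreyPackage)

lemma frey_a₁ : (P.freyCurve⁄Qb).a₁ = 1 := by
  simp [FreyPackage.freyCurve, WeierstrassCurve.baseChange, WeierstrassCurve.map]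

lemma frey_a₃ : (P.freyCurve⁄Qb).a₃ = 0 := by
  simp [FreyPackage.freyCurve, WeierstrassCurve.baseChange, WeierstrassCurve.map]

lemma frey_a₆ : (P.freyCurve⁄Qb).a₆ = 0 := by
  simp [FreyPackage.freyCurve, WeierstrassCurve.baseChange, WeierstrassCurve.map]

lemma frey_a₂ : (P.freyCurve⁄Qb).a₂ = ((P.b : Qb) ^ P.p - 1 - (P.a : Qb) ^ P.p) / 4 := by
  simp [FreyPackage.freyCurve, WeierstrassCurve.baseChange, WeierstrassCurve.map]

lemma frey_a₄ : (P.freyCurve⁄Qb).a₄ = -((P.a : Qb) ^ P.p) * ((P.b : Qb) ^ P.p) / 16 := by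
  simp [FreyPackage.freyCurve, WeierstrassCurve.baseChange, WeierstrassCurve.map]

lemma frey_b₂ : (P.freyCurve⁄Qb).b₂ = (P.b : Qb) ^ P.p - (P.a : Qb) ^ P.p := by
  rw [WeierstrassCurve.b₂, frey_a₁, frey_a₂]; ring

lemma frey_b₄ : (P.freyCurve⁄Qb).b₄ = -((P.a : Qb) ^ P.p) * ((P.b : Qb) ^ P.p) / 8 := by
  rw [WeierstrassCurve.b₄, frey_a₁, frey_a₃, frey_a₄]; ring

lemma frey_b₆ : (P.freyCurve⁄Qb).b₆ = 0 := by
  rw [WeierstrassCurve.b₆, frey_a₃, frey_a₆]; ring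

/-! ### arithmetic of the package -/

lemma isCoprime_of_gcd {a b : ℤ} (h : gcd a b = 1) : IsCoprime a b := by
  rw [Int.isCoprime_iff_gcd_eq_one]
  have : ((Int.gcd a b : ℕ) : ℤ) = 1 := h
  exact_mod_cast this

lemma not_dvd_of_coprime {q a b : ℤ} (hq : Prime q) (hab : IsCoprime a b) (ha : q ∣ a) :
    ¬ q ∣ b := by
  intro hb
  exact hq.not_isUnit (hab.isUnit_of_dvd' ha hb)

lemma not_dvd_pow_sub {q a b : ℤ} (hq : Prime q) (hab : IsCoprime a b) (ha : q ∣ a) {n : ℕ}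
    (hn : n ≠ 0) : ¬ q ∣ b ^ n - a ^ n := by
  intro h
  have h1 : q ∣ a ^ n := dvd_pow ha hn
  have h2 : q ∣ b ^ n := by
    have := dvd_add h h1
    rwa [sub_add_cancel] at this
  exact not_dvd_of_coprime hq hab ha (hq.dvd_of_dvd_pow h2)

lemma not_dvd_pow_sub' {q a b : ℤ} (hq : Prime q) (hab : IsCoprime a b) (hb : q ∣ b) {n : ℕ}
    (hn : n ≠ 0) : ¬ q ∣ b ^ n - a ^ n := by
  intro h
  have h1 : q ∣ b ^ n := dvd_pow hb hn
  have h2 : q ∣ a ^ n := by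
    have := dvd_sub h1 h
    rwa [sub_sub_cancel] at this
  exact not_dvd_of_coprime hq hab.symm hb (hq.dvd_of_dvd_pow h2)

lemma not_dvd_pow_add {q a c : ℤ} (hq : Prime q) (hac : IsCoprime a c) (hc : q ∣ c) {n : ℕ}
    (hn : n ≠ 0) : ¬ q ∣ c ^ n + a ^ n := by
  intro h
  have h1 : q ∣ c ^ n := dvd_pow hc hn
  have h2 : q ∣ a ^ n := by
    have := dvd_sub h h1
    rwa [add_sub_cancel_left] at this
  exact not_dvd_of_coprime hq hac.symm hc (hq.dvd_of_dvd_pow h2)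

/-! ### the Galois action on the Kummer data -/

section action

variable {P}
variable (σ : Qb ≃ₐ[ℚ] Qb) {e : Qb} (h2 : (2 : Qb) ≠ 0)
  (he : 4 * e ^ 3 + (P.freyCurve⁄Qb).b₂ * e ^ 2 + 2 * (P.freyCurve⁄Qb).b₄ * e +
    (P.freyCurve⁄Qb).b₆ = 0)

lemma kummer_ξ_map (hσe : σ e = e) (g : (P.freyCurve⁄Qb).Point) :
    (kummerOf (P.freyCurve⁄Qb) e h2 he).ξ (Point.map σ.toAlgHom g) =
      ((kummerOf (P.freyCurve⁄Qb) e h2 he).ξ g).map (σ : Qb →+* Qb) := by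
  cases g with
  | zero => rfl
  | some x y h =>
    show Option.some (σ x - e) = Option.some (σ (x - e))
    rw [map_sub, hσe]

lemma kummer_η_map (g : (P.freyCurve⁄Qb).Point) :
    (kummerOf (P.freyCurve⁄Qb) e h2 he).η (Point.map σ.toAlgHom g) =
      (σ : Qb →+* Qb) ((kummerOf (P.freyCurve⁄Qb) e h2 he).η g) := by
  cases g with
  | zero => exact (_root_.map_zero σ).symm
  | some x y h =>
    show 2 * σ y + (P.freyCurve⁄Qb).a₁ * σ x + (P.freyCurve⁄Qb).a₃ =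
      σ (2 * y + (P.freyCurve⁄Qb).a₁ * x + (P.freyCurve⁄Qb).a₃)
    rw [frey_a₁, frey_a₃, map_add, map_add, map_mul, map_mul, map_one, _root_.map_zero, map_ofNat]

end action

theorem frey_unramified {q : ℕ} (hq : q.Prime) (hq2 : q ≠ 2) (hqp : q ≠ P.p) :
    P.GaloisRepUnramifiedAt q := by
  intro A hA σ hσ x
  obtain ⟨v, hv⟩ := exists_rval A hq hA
  have hqZ : Prime (q : ℤ) := Nat.prime_iff_prime_int.mp hq
  have unit : ∀ n : ℤ, ¬ (q : ℤ) ∣ n → v.EQ (n : Qb) 0 := fun n hn => rval_int_unit hq hA hv hn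
  have hq2' : ¬ (q : ℤ) ∣ 2 := by
    intro h
    have h' : q ∣ 2 := by exact_mod_cast h
    exact hq2 ((Nat.prime_dvd_prime_iff_eq hq Nat.prime_two).mp h')
  have h2 : v.EQ (2 : Qb) 0 := by
    have := unit 2 hq2'
    simpa using this
  have h16 : v.EQ (16 : Qb) 0 := by
    have := (h2.pow 4).of_eq (b := 0) (by ring)
    norm_num at this
    exact this
  have hpv : v.EQ ((P.p : ℕ) : Qb) 0 := by
    have := unit (P.p : ℤ) (by
      intro h
      have h' : q ∣ P.p := by exact_mod_cast h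
      exact hqp ((Nat.prime_dvd_prime_iff_eq hq P.pp).mp h'))
    simpa using this
  have hσw : ∀ z, v.w ((σ : Qb →+* Qb) z) = v.w z := fun z => rval_inertia_w hv hσ z
  have hσs : ∀ z, v.GE z 0 → v.GT ((σ : Qb →+* Qb) z - z) 0 :=
    fun z hz => rval_inertia_sub hv hσ hz
  have hx : P.p • x.1 = 0 := by
    have := x.2
    rw [Submodule.mem_torsionBy_iff] at this
    rw [← natCast_zsmul]
    exact this
  have hFLT : (P.a : Qb) ^ P.p + (P.b : Qb) ^ P.p = (P.c : Qb) ^ P.p := by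
    have := congrArg (Int.cast : ℤ → Qb) P.hFLT
    push_cast at this
    exact this
  have hab := isCoprime_of_gcd P.hgcdab
  have hac := isCoprime_of_gcd P.hgcdac
  have hp0 := P.hp0
  apply Subtype.ext
  show σ • x.1 = x.1
  rw [algEquiv_smul_def]
  by_cases hc : (q : ℤ) ∣ P.c
  · -- multiplicative reduction, node at `x = a^p / 4`
    have he : 4 * ((P.a : Qb) ^ P.p / 4) ^ 3 + (P.freyCurve⁄Qb).b₂ * ((P.a : Qb) ^ P.p / 4) ^ 2 +
        2 * (P.freyCurve⁄Qb).b₄ * ((P.a : Qb) ^ P.p / 4) + (P.freyCurve⁄Qb).b₆ = 0 := by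
      rw [frey_b₂, frey_b₄, frey_b₆]; ring
    have hσe : σ ((P.a : Qb) ^ P.p / 4) = (P.a : Qb) ^ P.p / 4 := by
      rw [map_div₀, map_pow, map_intCast, map_ofNat]
    refine fixed_of_torsion (kummerOf (P.freyCurve⁄Qb) _ h2.1 he) v (σ : Qb →+* Qb)
      (Point.map σ.toAlgHom) (kummer_ξ_map σ h2.1 he hσe) (kummer_η_map σ h2.1 he) hσw hσs h2
      P.hp_odd hpv (Or.inr ⟨?_, ((P.a * P.c : ℤ) : Qb), ?_, ?_, ?_, ?_⟩) hx
    · show v.EQ ((P.freyCurve⁄Qb).b₂ + 12 * ((P.a : Qb) ^ P.p / 4)) 0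
      have := unit (P.c ^ P.p + P.a ^ P.p) (not_dvd_pow_add hqZ hac hc hp0)
      have h3 : (P.freyCurve⁄Qb).b₂ + 12 * ((P.a : Qb) ^ P.p / 4) =
          ((P.c ^ P.p + P.a ^ P.p : ℤ) : Qb) := by
        rw [frey_b₂]; push_cast; rw [← hFLT]; ring
      rw [h3]; exact this
    · exact_mod_cast mul_ne_zero P.ha0 P.hc0
    · exact map_intCast σ _
    · exact rval_int_pos hq hA hv (mul_ne_zero P.ha0 P.hc0) (Dvd.dvd.mul_left hc _)
    · show v.EQ (((P.freyCurve⁄Qb).b₄ + (P.freyCurve⁄Qb).b₂ * ((P.a : Qb) ^ P.p / 4) +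
        6 * ((P.a : Qb) ^ P.p / 4) ^ 2) / 2) _
      have h3 : ((P.freyCurve⁄Qb).b₄ + (P.freyCurve⁄Qb).b₂ * ((P.a : Qb) ^ P.p / 4) +
          6 * ((P.a : Qb) ^ P.p / 4) ^ 2) / 2 = ((P.a * P.c : ℤ) : Qb) ^ P.p / 16 := by
        rw [frey_b₂, frey_b₄]; push_cast; rw [mul_pow, ← hFLT]; ring
      rw [h3]
      have hne : ((P.a * P.c : ℤ) : Qb) ≠ 0 := by exact_mod_cast mul_ne_zero P.ha0 P.hc0
      exact (((RVal.EQ_self hne).pow P.p).div h16).of_eq (by ring)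
  · have he : 4 * (0 : Qb) ^ 3 + (P.freyCurve⁄Qb).b₂ * (0 : Qb) ^ 2 +
        2 * (P.freyCurve⁄Qb).b₄ * (0 : Qb) + (P.freyCurve⁄Qb).b₆ = 0 := by
      rw [frey_b₆]; ring
    have hβ : (P.freyCurve⁄Qb).b₂ + 12 * (0 : Qb) = ((P.b ^ P.p - P.a ^ P.p : ℤ) : Qb) := by
      rw [frey_b₂]; push_cast; ring
    have hκ : ((P.freyCurve⁄Qb).b₄ + (P.freyCurve⁄Qb).b₂ * (0 : Qb) + 6 * (0 : Qb) ^ 2) / 2 =
        -(((P.a * P.b : ℤ) : Qb) ^ P.p / 16) := by
      rw [frey_b₄]; push_cast; rw [mul_pow]; ring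
    have hne : ((P.a * P.b : ℤ) : Qb) ≠ 0 := by exact_mod_cast mul_ne_zero P.ha0 P.hb0
    refine fixed_of_torsion (kummerOf (P.freyCurve⁄Qb) 0 h2.1 he) v (σ : Qb →+* Qb)
      (Point.map σ.toAlgHom) (kummer_ξ_map σ h2.1 he (_root_.map_zero σ)) (kummer_η_map σ h2.1 he)
      hσw hσs h2 P.hp_odd hpv ?_ hx
    by_cases hdvd : (q : ℤ) ∣ P.a * P.b
    · right
      refine ⟨?_, ((P.a * P.b : ℤ) : Qb), hne, map_intCast σ _,
        rval_int_pos hq hA hv (mul_ne_zero P.ha0 P.hb0) hdvd, ?_⟩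
      · show v.EQ ((P.freyCurve⁄Qb).b₂ + 12 * (0 : Qb)) 0
        rw [hβ]
        rcases hqZ.dvd_or_dvd hdvd with h | h
        · exact unit _ (not_dvd_pow_sub hqZ hab h hp0)
        · exact unit _ (not_dvd_pow_sub' hqZ hab h hp0)
      · show v.EQ (((P.freyCurve⁄Qb).b₄ + (P.freyCurve⁄Qb).b₂ * (0 : Qb) + 6 * (0 : Qb) ^ 2) / 2) _
        rw [hκ]
        exact (((RVal.EQ_self hne).pow P.p).div h16).neg.of_eq (by ring)
    · left
      refine ⟨?_, ?_, ?_⟩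
      · show v.GE ((P.freyCurve⁄Qb).b₂ + 12 * (0 : Qb)) 0
        rw [hβ]
        exact RVal.GE_intCast _
      · show v.EQ (((P.freyCurve⁄Qb).b₄ + (P.freyCurve⁄Qb).b₂ * (0 : Qb) + 6 * (0 : Qb) ^ 2) / 2) 0
        rw [hκ]
        exact ((((unit _ hdvd)).pow P.p).div h16).neg.of_eq (by ring)
      · show v.EQ (((P.freyCurve⁄Qb).b₂ + 12 * (0 : Qb)) ^ 2 -
          64 * (((P.freyCurve⁄Qb).b₄ + (P.freyCurve⁄Qb).b₂ * (0 : Qb) + 6 * (0 : Qb) ^ 2) / 2)) 0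
        have h3 : ((P.freyCurve⁄Qb).b₂ + 12 * (0 : Qb)) ^ 2 -
          64 * (((P.freyCurve⁄Qb).b₄ + (P.freyCurve⁄Qb).b₂ * (0 : Qb) + 6 * (0 : Qb) ^ 2) / 2) =
            (((P.c : ℤ) : Qb) ^ P.p) ^ 2 := by
          rw [frey_b₂, frey_b₄, ← hFLT]; ring
        rw [h3]
        exact (((unit _ hc).pow P.p).sq).of_eq (by ring)

end Fermat.Agent.S05
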