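import Fermat.Agent.S05.Defs

set_option autoImplicit false

namespace Fermat.Agent.S05

variable {K : Type*} [Field K] {G : Type*} [AddCommGroup G]

namespace NoTorsion

/-- inverse of the `ξ` coordinate, `0` at the origin -/
noncomputable def tt (D : KummerData K G) (a : G) : K :=
  match D.ξ a with
  | none => 0
  | some y => y⁻¹

variable {D : KummerData K G} {v : RVal K}

lemma tt_none {a : G} (h : D.ξ a = none) : tt D a = 0 := by simp [tt, h]
lemma tt_some {a : G} {y : K} (h : D.ξ a = some y) : tt D a = y⁻¹ := by simp [tt, h]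
lemma tt_zero : tt D 0 = 0 := tt_none ((D.ξ_eq_none 0).mpr rfl)
lemma tt_neg (a : G) : tt D (-a) = tt D a := by simp [tt, D.ξ_neg]

/-- algebra for the doubling formula -/
lemma alg_dbl {β κ x X : K} (hx : x ≠ 0) (hX : X ≠ 0)
    (h : X * (x * (4 * x ^ 2 + β * x + 4 * κ)) = (x ^ 2 - κ) ^ 2) :
    (X⁻¹ - 4 * x⁻¹) * (1 - κ * x⁻¹ ^ 2) ^ 2 =
      x⁻¹ ^ 2 * (β + 12 * κ * x⁻¹ - 4 * κ ^ 2 * x⁻¹ ^ 3) := by
  field_simp
  linear_combination (-x) * h

/-- algebra for the add/sub formula -/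
lemma alg_addsub {β κ x y X Y : K} (hx : x ≠ 0) (hy : y ≠ 0) (hX : X ≠ 0) (hY : Y ≠ 0)
    (h : (X + Y) * (y * x - κ) ^ 2 = ((y + x) * (2 * y * x + 2 * κ) + β * y * x) * (X * Y)) :
    (X⁻¹ + Y⁻¹ - 2 * x⁻¹ - 2 * y⁻¹) * (1 - κ * y⁻¹ * x⁻¹) ^ 2 =
      y⁻¹ * x⁻¹ * ((y⁻¹ + x⁻¹) * (6 * κ - 2 * κ ^ 2 * y⁻¹ * x⁻¹) + β) := by
  field_simp
  linear_combination (x * y) * h

/-- `1 - κ s t` is a unit -/
lemma EQ_one_sub {κ s t : K} {θ : ℝ} (hθ : 0 < θ) (hκ : v.GE κ 0) (hs : v.GE s θ) (ht : v.GE t θ) :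
    v.EQ (1 - κ * s * t) 0 := by
  have h1 : v.GE (κ * s * t) (0 + θ + θ) := (hκ.mul hs).mul ht
  exact RVal.EQ_one.sub_GT (h1.GT (by linarith))

/-- doubling estimate -/
lemma dbl_est (hβ : v.GE D.β 0) (hκ : v.GE D.κ 0) {g : G} {x : K} {θ : ℝ} (hθ : 0 < θ)
    (hx : D.ξ g = some x) (ht : v.EQ x⁻¹ θ) :
    (∀ X, D.ξ (g + g) = some X → X ≠ 0) ∧ v.GE (tt D (g + g) - 4 * x⁻¹) (2 * θ) := by
  have hx0 : x ≠ 0 := by
    intro h
    exact ht.1 (by rw [h, inv_zero])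
  have htG : v.GE x⁻¹ θ := ht.GE le_rfl
  have htG0 : v.GE x⁻¹ 0 := ht.GE hθ.le
  have h4 : v.GE (4 : K) 0 := RVal.GE_ofNat 4
  have h12 : v.GE (12 : K) 0 := RVal.GE_ofNat 12
  by_cases hη : D.η g = 0
  · have h0 : g + g = 0 := D.dbl_zero g hη
    refine ⟨fun X hX => ?_, ?_⟩
    · rw [h0, (D.ξ_eq_none 0).mpr rfl] at hX
      exact absurd hX (by simp)
    · rw [h0, tt_zero]
      have h1 := D.η_sq g x hx
      rw [hη] at h1
      have h2 : 4 * x ^ 2 + D.β * x + 4 * D.κ = 0 := by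
        have : x * (4 * x ^ 2 + D.β * x + 4 * D.κ) = 0 := by
          rw [← h1]; ring
        exact (mul_eq_zero.mp this).resolve_left hx0
      have h3 : (0 : K) - 4 * x⁻¹ = x⁻¹ ^ 2 * (D.β + 4 * D.κ * x⁻¹) := by
        field_simp
        linear_combination (-1 : K) * h2
      rw [h3]
      have h5 : v.GE (D.β + 4 * D.κ * x⁻¹) 0 :=
        hβ.add (((h4.mul hκ).mul htG0).mono (by linarith))
      exact (htG.sq.mul h5).mono (by linarith)
  · obtain ⟨X0, hX0, hrel⟩ := D.dbl g x hx hη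
    have hu : v.EQ (1 - D.κ * x⁻¹ * x⁻¹) 0 := EQ_one_sub hθ hκ htG htG
    have hne : x ^ 2 - D.κ ≠ 0 := by
      have : x ^ 2 - D.κ = x ^ 2 * (1 - D.κ * x⁻¹ * x⁻¹) := by
        field_simp
      rw [this]
      exact mul_ne_zero (pow_ne_zero 2 hx0) hu.1
    have hX0ne : X0 ≠ 0 := by
      intro h
      rw [h, zero_mul] at hrel
      exact pow_ne_zero 2 hne hrel.symm
    refine ⟨fun X hX => ?_, ?_⟩
    · rw [hX0] at hX
      rw [← Option.some.inj hX]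
      exact hX0ne
    · rw [tt_some hX0]
      have halg := alg_dbl hx0 hX0ne hrel
      have hu' : v.EQ ((1 - D.κ * x⁻¹ ^ 2) ^ 2) 0 := by
        have : (1 - D.κ * x⁻¹ ^ 2) = (1 - D.κ * x⁻¹ * x⁻¹) := by ring
        rw [this]
        exact hu.sq.of_eq (by ring)
      have h5 : v.GE (D.β + 12 * D.κ * x⁻¹ - 4 * D.κ ^ 2 * x⁻¹ ^ 3) 0 := by
        refine (hβ.add (((h12.mul hκ).mul htG0).mono (by linarith))).sub ?_
        exact ((h4.mul (hκ.pow 2)).mul (htG0.pow 3)).mono (by norm_num)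
      have h6 : v.GE (x⁻¹ ^ 2 * (D.β + 12 * D.κ * x⁻¹ - 4 * D.κ ^ 2 * x⁻¹ ^ 3)) (2 * θ) :=
        (htG.sq.mul h5).mono (by linarith)
      exact (RVal.GE.of_mul_eq_left halg hu' h6).mono (by linarith)

/-- the induction step -/
lemma step (hβ : v.GE D.β 0) (hκ : v.GE D.κ 0) {g : G} {x : K} {θ : ℝ} (hθ : 0 < θ)
    (hx : D.ξ g = some x) (ht : v.EQ x⁻¹ θ) {a : G}
    (ha0 : ∀ y, D.ξ a = some y → y ≠ 0) (hs : v.GE (tt D a) θ) :
    (∀ X, D.ξ (a + g) = some X → X ≠ 0) ∧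
      v.GE (tt D (a + g) + tt D (a - g) - 2 * x⁻¹ - 2 * tt D a) (2 * θ) := by
  have hx0 : x ≠ 0 := by
    intro h
    exact ht.1 (by rw [h, inv_zero])
  have htG : v.GE x⁻¹ θ := ht.GE le_rfl
  obtain ⟨hd1, hd2⟩ := dbl_est hβ hκ hθ hx ht
  by_cases ha : a = 0
  · subst ha
    refine ⟨fun X hX => ?_, ?_⟩
    · rw [zero_add, hx] at hX
      rw [← Option.some.inj hX]
      exact hx0
    · rw [zero_add, zero_sub, tt_neg, tt_zero, tt_some hx]
      have : x⁻¹ + x⁻¹ - 2 * x⁻¹ - 2 * 0 = 0 := by ring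
      rw [this]
      exact RVal.GE_zero _
  have hne : D.ξ a ≠ none := fun h => ha ((D.ξ_eq_none a).mp h)
  obtain ⟨y, hy⟩ := Option.ne_none_iff_exists'.mp hne
  have hy0 : y ≠ 0 := ha0 y hy
  rw [tt_some hy] at hs ⊢
  by_cases hyx : y = x
  · subst hyx
    rcases D.eq_or_eq_neg a g (by rw [hy, hx]) with h | h
    · subst h
      refine ⟨hd1, ?_⟩
      rw [sub_self, tt_zero]
      have : tt D (a + a) + 0 - 2 * y⁻¹ - 2 * y⁻¹ = tt D (a + a) - 4 * y⁻¹ := by ring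
      rw [this]
      exact hd2
    · subst h
      refine ⟨fun X hX => ?_, ?_⟩
      · rw [neg_add_cancel, (D.ξ_eq_none 0).mpr rfl] at hX
        exact absurd hX (by simp)
      · have h1 : -g - g = -(g + g) := by abel
        rw [neg_add_cancel, tt_zero, h1, tt_neg]
        have : 0 + tt D (g + g) - 2 * y⁻¹ - 2 * y⁻¹ = tt D (g + g) - 4 * y⁻¹ := by ring
        rw [this]
        exact hd2
  · obtain ⟨X, Y, hX, hY, hprod, hsum⟩ := D.addsub a g y x hy hx hyx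
    have hu : v.EQ (1 - D.κ * y⁻¹ * x⁻¹) 0 := EQ_one_sub hθ hκ hs htG
    have hne2 : y * x - D.κ ≠ 0 := by
      have : y * x - D.κ = y * x * (1 - D.κ * y⁻¹ * x⁻¹) := by
        field_simp
      rw [this]
      exact mul_ne_zero (mul_ne_zero hy0 hx0) hu.1
    have hXY : X * Y ≠ 0 := by
      intro h
      rw [h, zero_mul] at hprod
      exact pow_ne_zero 2 hne2 hprod.symm
    have hX0 : X ≠ 0 := left_ne_zero_of_mul hXY
    have hY0 : Y ≠ 0 := right_ne_zero_of_mul hXY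
    refine ⟨fun X' hX' => ?_, ?_⟩
    · rw [hX] at hX'
      rw [← Option.some.inj hX']
      exact hX0
    · rw [tt_some hX, tt_some hY]
      have hrel : (X + Y) * (y * x - D.κ) ^ 2 =
          ((y + x) * (2 * y * x + 2 * D.κ) + D.β * y * x) * (X * Y) := by
        rw [← hprod, ← hsum]
        ring
      have halg := alg_addsub hx0 hy0 hX0 hY0 hrel
      have hu' : v.EQ ((1 - D.κ * y⁻¹ * x⁻¹) ^ 2) 0 := hu.sq.of_eq (by ring)
      have hs0 : v.GE y⁻¹ 0 := hs.mono hθ.le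
      have ht0 : v.GE x⁻¹ 0 := htG.mono hθ.le
      have h6 : v.GE (6 : K) 0 := RVal.GE_ofNat 6
      have h2 : v.GE (2 : K) 0 := RVal.GE_ofNat 2
      have h5 : v.GE ((y⁻¹ + x⁻¹) * (6 * D.κ - 2 * D.κ ^ 2 * y⁻¹ * x⁻¹) + D.β) 0 := by
        refine RVal.GE.add ?_ hβ
        have e1 : v.GE (6 * D.κ - 2 * D.κ ^ 2 * y⁻¹ * x⁻¹) 0 := by
          refine ((h6.mul hκ).mono (by linarith)).sub ?_
          exact (((h2.mul (hκ.pow 2)).mul hs0).mul ht0).mono (by norm_num)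
        exact ((hs0.add ht0).mul e1).mono (by linarith)
      have h7 : v.GE (y⁻¹ * x⁻¹ * ((y⁻¹ + x⁻¹) * (6 * D.κ - 2 * D.κ ^ 2 * y⁻¹ * x⁻¹) + D.β))
          (2 * θ) := ((hs.mul htG).mul h5).mono (by linarith)
      exact (RVal.GE.of_mul_eq_left halg hu' h7).mono (by linarith)

end NoTorsion

open NoTorsion in
/-- The kernel of reduction `{w ξ < 0}` has no `n`-torsion when `n` is a unit.
Proof: `t k := (ξ (k • g))⁻¹` (`0` at the origin) satisfies
`(t (k+1) + t (k-1)) * (1 - κ t₁ t_k)^2 = (t₁ + t_k) * (2 + 2 κ t₁ t_k) + β t₁ t_k`,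
hence `t k - k^2 * t 1` has valuation `≥ 2 θ`, `θ = w (t 1) > 0`, by induction on `k`. -/
theorem no_torsion (D : KummerData K G) (v : RVal K) (hβ : v.GE D.β 0) (hκ : v.GE D.κ 0)
    {g : G} {x : K} (hx : D.ξ g = some x) (hx0 : x ≠ 0) (hw : v.w x < 0)
    {n : ℕ} (hn : v.EQ (n : K) 0) : n • g ≠ 0 := by
  set θ : ℝ := - v.w x with hθdef
  have hθ : 0 < θ := by linarith
  have ht : v.EQ x⁻¹ θ := (RVal.EQ_self hx0).inv
  have htG : v.GE x⁻¹ θ := ht.GE le_rfl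
  have key : ∀ k : ℕ,
      ((∀ y, D.ξ (k • g) = some y → y ≠ 0) ∧ v.GE (tt D (k • g) - (k : K) ^ 2 * x⁻¹) (2 * θ)) ∧
      ((∀ y, D.ξ ((k + 1) • g) = some y → y ≠ 0) ∧
        v.GE (tt D ((k + 1) • g) - ((k + 1 : ℕ) : K) ^ 2 * x⁻¹) (2 * θ)) := by
    intro k
    induction k with
    | zero =>
      refine ⟨⟨fun y hy => ?_, ?_⟩, ⟨fun y hy => ?_, ?_⟩⟩
      · rw [zero_smul, (D.ξ_eq_none 0).mpr rfl] at hy
        exact absurd hy (by simp)
      · rw [zero_smul, tt_zero]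
        simpa using RVal.GE_zero (v := v) (2 * θ)
      · rw [zero_add, one_smul, hx] at hy
        rw [← Option.some.inj hy]
        exact hx0
      · rw [zero_add, one_smul, tt_some hx]
        simpa using RVal.GE_zero (v := v) (2 * θ)
    | succ k ih =>
      obtain ⟨⟨-, h0⟩, ⟨h1a, h1⟩⟩ := ih
      refine ⟨⟨h1a, h1⟩, ?_⟩
      have hs : v.GE (tt D ((k + 1) • g)) θ := by
        have e : tt D ((k + 1) • g) =
            (tt D ((k + 1) • g) - ((k + 1 : ℕ) : K) ^ 2 * x⁻¹) + ((k + 1 : ℕ) : K) ^ 2 * x⁻¹ := by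
          ring
        rw [e]
        refine (h1.mono (by linarith)).add ?_
        exact (((RVal.GE_natCast (v := v) (k + 1)).pow 2).mul htG).mono (by norm_num)
      obtain ⟨s1, s2⟩ := step hβ hκ hθ hx ht h1a hs
      have e1 : (k + 1) • g + g = (k + 1 + 1) • g := by
        rw [add_smul (k + 1) 1 g, one_smul]
      have e2 : (k + 1) • g - g = k • g := by
        rw [add_smul k 1 g, one_smul, add_sub_cancel_right]
      rw [e1] at s1 s2
      rw [e2] at s2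
      refine ⟨s1, ?_⟩
      have e3 : tt D ((k + 1 + 1) • g) - ((k + 1 + 1 : ℕ) : K) ^ 2 * x⁻¹ =
          (tt D ((k + 1 + 1) • g) + tt D (k • g) - 2 * x⁻¹ - 2 * tt D ((k + 1) • g))
          - (tt D (k • g) - (k : K) ^ 2 * x⁻¹)
          + 2 * (tt D ((k + 1) • g) - ((k + 1 : ℕ) : K) ^ 2 * x⁻¹) := by
        push_cast
        ring
      rw [e3]
      refine (s2.sub h0).add ?_
      exact ((RVal.GE_ofNat (v := v) 2).mul h1).mono (by linarith)
  intro hzero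
  have h := (key n).1.2
  rw [hzero, tt_zero, zero_sub] at h
  have h2 : v.EQ ((n : K) ^ 2 * x⁻¹) θ := ((hn.pow 2).mul ht).of_eq (by ring)
  have h3 := h.neg
  rw [neg_neg] at h3
  have h4 := h3.le_w h2.1
  rw [h2.2] at h4
  linarith

end Fermat.Agent.S05
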