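import Fermat.Agent.S05.LemmaT
import Fermat.Agent.S05.NoTorsion

set_option autoImplicit false

namespace Fermat.Agent.S05

variable {K : Type*} [Field K] {v : RVal K}

lemma RVal.GE_of_sq {y : K} {a : ℝ} (h : v.GE (y ^ 2) (2 * a)) : v.GE y a := by
  by_cases hy : y = 0
  · exact Or.inl hy
  · have := h.le_w (pow_ne_zero 2 hy)
    rw [RVal.w_pow hy] at this
    push_cast at this
    exact Or.inr (by linarith)

lemma RVal.GT_of_sq {y : K} {a : ℝ} (h : v.GT (y ^ 2) (2 * a)) : v.GT y a := by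
  by_cases hy : y = 0
  · exact Or.inl hy
  · have := h.lt_w (pow_ne_zero 2 hy)
    rw [RVal.w_pow hy] at this
    push_cast at this
    exact Or.inr (by linarith)

lemma RVal.EQ_of_sq {y : K} {a : ℝ} (h : v.EQ (y ^ 2) (2 * a)) : v.EQ y a := by
  have hy : y ≠ 0 := by
    intro hy
    exact h.1 (by rw [hy]; ring)
  have := h.2
  rw [RVal.w_pow hy] at this
  push_cast at this
  exact ⟨hy, by linarith⟩

lemma RVal.EQ.not_GT {x : K} {a b : ℝ} (h : v.EQ x a) (h' : v.GT x b) (hab : a ≤ b := by linarith) :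
    False := h'.not_LE (h.LE le_rfl) hab

/-- The three situations in which the argument works. -/
def Sit (v : RVal K) (σ : K →+* K) (β κ x : K) : Prop :=
  (v.GE x 0 ∧ v.EQ (x ^ 2 - κ) 0) ∨
  (v.GE x 0 ∧ v.EQ (x * (4 * x ^ 2 + β * x + 4 * κ)) 0) ∨
  (∃ r : ℝ, 0 < r ∧ v.EQ x r ∧ v.GT κ r ∧ v.EQ β 0 ∧ v.GT (σ x - x) r)

variable {σ : K →+* K} {β κ x : K}

/-- Step 2, field level: the add/sub formulas for `(σ x, x)` are incompatible with integrality
of both results. -/
lemma sit_step2 (hσw : ∀ x, v.w (σ x) = v.w x) (hσ : ∀ x, v.GE x 0 → v.GT (σ x - x) 0)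
    (hβ : v.GE β 0) (hκ : v.GE κ 0) (hs : Sit v σ β κ x) {X Y : K}
    (hprod : X * Y * (σ x - x) ^ 2 = (σ x * x - κ) ^ 2)
    (hsum : (X + Y) * (σ x - x) ^ 2 = (σ x + x) * (2 * σ x * x + 2 * κ) + β * σ x * x)
    (hX : v.GE X 0) (hY : v.GE Y 0) : False := by
  have two : v.GE (2 : K) 0 := RVal.GE_ofNat 2
  have six : v.GE (6 : K) 0 := RVal.GE_ofNat 6
  rcases hs with ⟨hx, hN⟩ | ⟨hx, hS⟩ | ⟨r, hr, hx, hκr, hβ0, hδ⟩
  · have hδ := hσ x hx
    have h1 : v.EQ (σ x * x - κ) 0 := by
      have : σ x * x - κ = (x ^ 2 - κ) + (σ x - x) * x := by ring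
      rw [this]
      exact hN.add_GT ((hδ.mul_GE hx).mono (by linarith))
    have h2 : v.GT (X * Y * (σ x - x) ^ 2) 0 :=
      ((hX.mul hY).mul_GT hδ.sq).mono (by linarith)
    rw [hprod] at h2
    exact (h1.sq).not_GT h2 (by linarith)
  · have hδ := hσ x hx
    have h1 : v.EQ ((σ x + x) * (2 * σ x * x + 2 * κ) + β * σ x * x) 0 := by
      have : (σ x + x) * (2 * σ x * x + 2 * κ) + β * σ x * x =
          x * (4 * x ^ 2 + β * x + 4 * κ) +
            (σ x - x) * (6 * x ^ 2 + 2 * (σ x - x) * x + 2 * κ + β * x) := by ring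
      rw [this]
      refine hS.add_GT ((hδ.mul_GE (a := 0) (b := 0) ?_).mono (by linarith))
      refine (((((six.mul hx.sq).mono (by linarith)).add
        (((two.mul (hδ.GE le_rfl)).mul hx).mono (by linarith))).add
        ((two.mul hκ).mono (by linarith))).add ((hβ.mul hx).mono (by linarith)))
    have h2 : v.GT ((X + Y) * (σ x - x) ^ 2) 0 :=
      ((hX.add hY).mul_GT hδ.sq).mono (by linarith)
    rw [hsum] at h2
    exact h1.not_GT h2 le_rfl
  · have hσx : v.EQ (σ x) r := by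
      refine ⟨?_, by rw [hσw, hx.2]⟩
      intro h0
      exact hx.1 ((map_eq_zero σ).mp h0)
    have h1 : v.EQ ((σ x + x) * (2 * σ x * x + 2 * κ) + β * σ x * x) (2 * r) := by
      have hA : v.EQ (β * σ x * x) (2 * r) := ((hβ0.mul hσx).mul hx).of_eq (by ring)
      refine hA.GT_add ?_
      have hB : v.GE (σ x + x) r := (hσx.GE le_rfl).add (hx.GE le_rfl)
      have hC : v.GT (2 * σ x * x + 2 * κ) r := by
        refine RVal.GT.add ?_ ?_
        · exact (((two.mul (hσx.GE le_rfl)).mul (hx.GE le_rfl)).GT (by linarith))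
        · exact (two.mul_GT hκr).mono (by linarith)
      exact (hB.mul_GT hC).mono (by linarith)
    have h2 : v.GT ((X + Y) * (σ x - x) ^ 2) (2 * r) :=
      ((hX.add hY).mul_GT hδ.sq).mono (by linarith)
    rw [hsum] at h2
    exact h1.not_GT h2 le_rfl

variable {G : Type*} [AddCommGroup G]

lemma eq_zero_of_odd_nsmul {g : G} {p : ℕ} (hp : Odd p) (hg : p • g = 0) (h2 : g + g = 0) :
    g = 0 := by
  obtain ⟨m, rfl⟩ := hp
  rw [add_smul, one_smul, mul_comm, mul_smul, two_smul, h2, smul_zero, zero_add] at hg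
  exact hg

theorem fixed_of_sit (D : KummerData K G) (v : RVal K) (σ : K →+* K) (τ : G →+ G)
    (hξ : ∀ g, D.ξ (τ g) = (D.ξ g).map σ) (hη : ∀ g, D.η (τ g) = σ (D.η g))
    (hσw : ∀ x, v.w (σ x) = v.w x) (hσ : ∀ x, v.GE x 0 → v.GT (σ x - x) 0)
    (h2 : v.EQ 2 0) {p : ℕ} (hp : Odd p) (hpv : v.EQ (p : K) 0)
    (hβ : v.GE D.β 0) (hκ : v.GE D.κ 0)
    {g : G} (hg : p • g = 0) {x : K} (hx : D.ξ g = some x) (hs : Sit v σ D.β D.κ x) :
    τ g = g := by
  -- integrality of torsion points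
  have NT : ∀ (g' : G) (x' : K), D.ξ g' = some x' → p • g' = 0 → v.GE x' 0 := by
    intro g' x' hx' hg'
    by_contra hcon
    have hx0 : x' ≠ 0 := fun h => hcon (Or.inl h)
    have hlt : v.w x' < 0 := by
      by_contra h
      exact hcon (Or.inr (not_lt.mp h))
    exact no_torsion D v hβ hκ hx' hx0 hlt hpv hg'
  have hτx : D.ξ (τ g) = some (σ x) := by rw [hξ, hx]; rfl
  have hτg : p • τ g = 0 := by rw [← map_nsmul, hg, map_zero]
  -- step 2
  have hfix : σ x = x := by
    by_contra hne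
    obtain ⟨X, Y, hX, hY, hprod, hsum⟩ := D.addsub (τ g) g (σ x) x hτx hx hne
    exact sit_step2 hσw hσ hβ hκ hs hprod hsum
      (NT _ X hX (by rw [smul_add, hτg, hg, add_zero]))
      (NT _ Y hY (by rw [smul_sub, hτg, hg, sub_zero]))
  -- step 3
  rcases D.eq_or_eq_neg (τ g) g (by rw [hτx, hx, hfix]) with h | h
  · exact h
  exfalso
  have hg0 : g ≠ 0 := by
    intro h0
    rw [(D.ξ_eq_none g).mpr h0] at hx
    cases hx
  set y := D.η g with hy
  have hσy : σ y = - y := by rw [hy, ← hη, h, D.η_neg]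
  have hysq : y ^ 2 = x * (4 * x ^ 2 + D.β * x + 4 * D.κ) := D.η_sq g x hx
  have four : v.GE (4 : K) 0 := RVal.GE_ofNat 4
  have hy0 : y ≠ 0 := by
    intro h0
    exact hg0 (eq_zero_of_odd_nsmul hp hg (D.dbl_zero g h0))
  have small_of_int : v.GE y 0 → v.GT y 0 := by
    intro hyi
    have h3 := hσ y hyi
    rw [hσy] at h3
    have h4 : y = (-y - y) * (-(2 : K))⁻¹ := by
      have : (2 : K) ≠ 0 := h2.1
      field_simp
      ring
    rw [h4]
    exact (h3.mul_GE (h2.neg.inv.GE le_rfl)).mono (by linarith)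
  rcases hs with ⟨hxi, hN⟩ | ⟨hxi, hS⟩ | ⟨r, hr, hxr, hκr, hβ0, hδ⟩
  · have hS0 : v.GE (x * (4 * x ^ 2 + D.β * x + 4 * D.κ)) 0 := by
      refine (hxi.mul (a := 0) (b := 0) ?_).mono (by linarith)
      exact (((four.mul hxi.sq).mono (by linarith)).add ((hβ.mul hxi).mono (by linarith))).add
        ((four.mul hκ).mono (by linarith))
    have hyi : v.GE y 0 := RVal.GE_of_sq (by rw [hysq]; exact hS0.mono (by linarith))
    have hys := small_of_int hyi
    obtain ⟨X, hX, hXe⟩ := D.dbl g x hx hy0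
    have hXi := NT _ X hX (by rw [smul_add, hg, add_zero])
    rw [← hysq] at hXe
    have h5 : v.GT (X * y ^ 2) 0 := (hXi.mul_GT hys.sq).mono (by linarith)
    rw [hXe] at h5
    exact hN.sq.not_GT h5 (by linarith)
  · have hyi : v.GE y 0 := RVal.GE_of_sq (by rw [hysq]; exact hS.GE (by linarith))
    have hys := small_of_int hyi
    have h5 := hys.sq
    rw [hysq] at h5
    exact hS.not_GT h5 (by linarith)
  · have hS : v.EQ (x * (4 * x ^ 2 + D.β * x + 4 * D.κ)) (2 * r) := by
      have h6 : v.EQ (4 * x ^ 2 + D.β * x + 4 * D.κ) r := by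
        have h7 : v.EQ (D.β * x) r := (hβ0.mul hxr).of_eq (by ring)
        have h8 : v.GT (4 * x ^ 2) r := (four.mul (hxr.sq.GE le_rfl)).GT (by linarith)
        have h9 : v.GT (4 * D.κ) r := (four.mul_GT hκr).mono (by linarith)
        exact (h7.GT_add h8).add_GT h9
      exact (hxr.mul h6).of_eq (by ring)
    have hyr : v.EQ y r := RVal.EQ_of_sq (by rw [hysq]; exact hS)
    have hz : v.EQ (y / x) 0 := (hyr.div hxr).of_eq (by ring)
    have h3 := hσ (y / x) (hz.GE le_rfl)
    rw [map_div₀, hσy, hfix] at h3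
    have h4 : -y / x - y / x = (-2) * (y / x) := by ring
    rw [h4] at h3
    exact ((h2.neg.mul hz).of_eq (by ring)).not_GT h3 le_rfl

/-- Main abstract theorem: an automorphism in the "inertia group" fixes the odd prime-to-residue
characteristic torsion, in the good reduction case and in the multiplicative reduction case with
`w κ` divisible by `p`. -/
theorem fixed_of_torsion (D : KummerData K G) (v : RVal K) (σ : K →+* K) (τ : G →+ G)
    (hξ : ∀ g, D.ξ (τ g) = (D.ξ g).map σ) (hη : ∀ g, D.η (τ g) = σ (D.η g))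
    (hσw : ∀ x, v.w (σ x) = v.w x) (hσ : ∀ x, v.GE x 0 → v.GT (σ x - x) 0)
    (h2 : v.EQ 2 0) {p : ℕ} (hp : Odd p) (hpv : v.EQ (p : K) 0)
    (hcase : (v.GE D.β 0 ∧ v.EQ D.κ 0 ∧ v.EQ (D.β ^ 2 - 64 * D.κ) 0) ∨
      (v.EQ D.β 0 ∧ ∃ c : K, c ≠ 0 ∧ σ c = c ∧ 0 < v.w c ∧ v.EQ D.κ (p * v.w c)))
    {g : G} (hg : p • g = 0) : τ g = g := by
  have hp0 : 0 < p := hp.pos
  have hβ : v.GE D.β 0 := by
    rcases hcase with h | h
    · exact h.1
    · exact h.1.GE le_rfl
  have hκ : v.GE D.κ 0 := by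
    rcases hcase with h | ⟨-, c, -, -, hc, h⟩
    · exact h.2.1.GE le_rfl
    · exact h.GE (by positivity)
  cases hx : D.ξ g with
  | none =>
    rw [(D.ξ_eq_none g).mp hx, map_zero]
  | some x =>
    have hxi : v.GE x 0 := by
      by_contra hcon
      have hx0 : x ≠ 0 := fun h => hcon (Or.inl h)
      have hlt : v.w x < 0 := by
        by_contra h
        exact hcon (Or.inr (not_lt.mp h))
      exact no_torsion D v hβ hκ hx hx0 hlt hpv hg
    refine fixed_of_sit D v σ τ hξ hη hσw hσ h2 hp hpv hβ hκ hg hx ?_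
    have four : v.GE (4 : K) 0 := RVal.GE_ofNat 4
    have eight : v.GE (8 : K) 0 := RVal.GE_ofNat 8
    rcases hcase with ⟨-, hκ0, hdisc⟩ | ⟨hβ0, c, hc0, hσc, hcpos, hκh⟩
    · -- good reduction
      rcases RVal.GE_or_LE (v := v) (x ^ 2 - D.κ) 0 with hsmall | hbig
      · right; left
        refine ⟨hxi, ?_⟩
        have hx2 : v.EQ (x ^ 2) 0 := by
          have : x ^ 2 = D.κ + (x ^ 2 - D.κ) := by ring
          rw [this]
          exact hκ0.add_GT hsmall
        have hx0 : v.EQ x 0 := RVal.EQ_of_sq (hx2.of_eq (by ring))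
        have hfac : v.EQ (4 * x ^ 2 + D.β * x + 4 * D.κ) 0 := by
          have hge : v.GE (4 * x ^ 2 + D.β * x + 4 * D.κ) 0 :=
            (((four.mul hxi.sq).mono (by linarith)).add ((hβ.mul hxi).mono (by linarith))).add
              ((four.mul hκ).mono (by linarith))
          rcases RVal.GE_or_LE (v := v) (4 * x ^ 2 + D.β * x + 4 * D.κ) 0 with hs | hb
          · exfalso
            -- β x + 8 κ is small
            have h1 : v.GT (D.β * x + 8 * D.κ) 0 := by
              have : D.β * x + 8 * D.κ =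
                  (4 * x ^ 2 + D.β * x + 4 * D.κ) - 4 * (x ^ 2 - D.κ) := by ring
              rw [this]
              exact hs.sub ((four.mul_GT hsmall).mono (by linarith))
            have h3 : v.GT ((D.β * x + 8 * D.κ) * (D.β * x - 8 * D.κ)) 0 := by
              refine (h1.mul_GE (b := 0) ?_).mono (by linarith)
              exact ((hβ.mul hxi).mono (by linarith)).sub ((eight.mul hκ).mono (by linarith))
            have h4 : (D.β * x + 8 * D.κ) * (D.β * x - 8 * D.κ) =
                D.κ * (D.β ^ 2 - 64 * D.κ) + D.β ^ 2 * (x ^ 2 - D.κ) := by ring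
            rw [h4] at h3
            have h5 : v.EQ (D.κ * (D.β ^ 2 - 64 * D.κ) + D.β ^ 2 * (x ^ 2 - D.κ)) 0 := by
              refine ((hκ0.mul hdisc).of_eq (by ring)).add_GT ?_
              exact (hβ.sq.mul_GT hsmall).mono (by linarith)
            exact h5.not_GT h3 le_rfl
          · exact ⟨hb.1, le_antisymm hb.2 (hge.le_w hb.1)⟩
        exact (hx0.mul hfac).of_eq (by ring)
      · left
        refine ⟨hxi, hbig.1, le_antisymm hbig.2 ?_⟩
        exact ((hxi.sq.mono (by linarith)).sub hκ).le_w hbig.1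
    · -- multiplicative reduction
      have hh : 0 < (p : ℝ) * v.w c := by positivity
      rcases RVal.GE_or_LE (v := v) x 0 with hpos | hle
      · right; right
        obtain ⟨hx0, hxh, j, hj⟩ := val_of_torsion D hh h2 hβ0 hκh hx hpos hp hg
        have hwx : v.w x = (2 * j : ℤ) * v.w c := by
          have hpR : (p : ℝ) ≠ 0 := by positivity
          have : (p : ℝ) * (v.w x - 2 * j * v.w c) = 0 := by linarith
          rcases mul_eq_zero.mp this with h | h
          · exact absurd h hpR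
          · push_cast; linarith
        refine ⟨v.w x, hpos.lt_w hx0, ⟨hx0, rfl⟩, hκh.GT hxh, hβ0, ?_⟩
        have hcj : v.EQ (c ^ (2 * j)) (v.w x) := ⟨zpow_ne_zero _ hc0, by rw [RVal.w_zpow hc0, hwx]⟩
        have hu : v.EQ (x / c ^ (2 * j)) 0 := ((RVal.EQ_self hx0).div hcj).of_eq (by ring)
        have h3 := hσ _ (hu.GE le_rfl)
        rw [map_div₀, map_zpow₀, hσc] at h3
        have h4 : σ x - x = (σ x / c ^ (2 * j) - x / c ^ (2 * j)) * c ^ (2 * j) := by
          have := hcj.1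
          field_simp
        rw [h4]
        exact (h3.mul_GE (hcj.GE le_rfl)).mono (by linarith)
      · left
        refine ⟨hxi, ?_⟩
        have hx0 : v.EQ x 0 := ⟨hle.1, le_antisymm hle.2 (hxi.le_w hle.1)⟩
        exact (hx0.sq.of_eq (by ring)).sub_GT (hκh.GT hh)

end Fermat.Agent.S05
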