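import Mathlib

set_option autoImplicit false

namespace Fermat.Agent.S05

/-- A real valued additive valuation on a field; the value at `0` is junk. -/
structure RVal (K : Type*) [Field K] where
  w : K → ℝ
  map_mul : ∀ x y : K, x ≠ 0 → y ≠ 0 → w (x * y) = w x + w y
  map_add : ∀ x y : K, x ≠ 0 → y ≠ 0 → x + y ≠ 0 → min (w x) (w y) ≤ w (x + y)

namespace RVal

variable {K : Type*} [Field K] (v : RVal K)

/-- `w x ≥ a`, with `w 0 = ∞`. -/
def GE (x : K) (a : ℝ) : Prop := x = 0 ∨ a ≤ v.w x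

/-- `w x > a`, with `w 0 = ∞`. -/
def GT (x : K) (a : ℝ) : Prop := x = 0 ∨ a < v.w x

/-- `x ≠ 0` and `w x = a`. -/
def EQ (x : K) (a : ℝ) : Prop := x ≠ 0 ∧ v.w x = a

/-- `x ≠ 0` and `w x ≤ a`. -/
def LE (x : K) (a : ℝ) : Prop := x ≠ 0 ∧ v.w x ≤ a

variable {v}

lemma w_one : v.w 1 = 0 := by
  have h := v.map_mul 1 1 one_ne_zero one_ne_zero
  rw [mul_one] at h
  linarith

lemma w_neg_one : v.w (-1) = 0 := by
  have h := v.map_mul (-1) (-1) (neg_ne_zero.mpr one_ne_zero) (neg_ne_zero.mpr one_ne_zero)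
  rw [neg_mul_neg, mul_one, w_one] at h
  linarith

lemma w_neg (x : K) : v.w (-x) = v.w x := by
  by_cases hx : x = 0
  · simp [hx]
  · have h := v.map_mul (-1) x (neg_ne_zero.mpr one_ne_zero) hx
    rw [w_neg_one, neg_one_mul] at h
    linarith

lemma w_inv {x : K} (hx : x ≠ 0) : v.w x⁻¹ = - v.w x := by
  have h := v.map_mul x x⁻¹ hx (inv_ne_zero hx)
  rw [mul_inv_cancel₀ hx, w_one] at h
  linarith

lemma w_div {x y : K} (hx : x ≠ 0) (hy : y ≠ 0) : v.w (x / y) = v.w x - v.w y := by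
  rw [div_eq_mul_inv, v.map_mul x y⁻¹ hx (inv_ne_zero hy), w_inv hy]
  ring

lemma w_pow {x : K} (hx : x ≠ 0) (n : ℕ) : v.w (x ^ n) = n * v.w x := by
  induction n with
  | zero => simp [w_one]
  | succ n ih =>
    rw [pow_succ, v.map_mul _ _ (pow_ne_zero n hx) hx, ih]
    push_cast
    ring

lemma w_zpow {x : K} (hx : x ≠ 0) (n : ℤ) : v.w (x ^ n) = n * v.w x := by
  cases n with
  | ofNat n => simpa using w_pow hx n
  | negSucc n =>
    rw [zpow_negSucc, w_inv (pow_ne_zero _ hx), w_pow hx]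
    push_cast
    ring

/-! ### basic calculus of the predicates -/

lemma EQ.ne_zero {x : K} {a : ℝ} (h : v.EQ x a) : x ≠ 0 := h.1
lemma EQ.w_eq {x : K} {a : ℝ} (h : v.EQ x a) : v.w x = a := h.2
lemma LE.ne_zero {x : K} {a : ℝ} (h : v.LE x a) : x ≠ 0 := h.1

lemma EQ.of_eq {x : K} {a b : ℝ} (h : v.EQ x a) (hab : a = b) : v.EQ x b := hab ▸ h

lemma EQ.GE {x : K} {a b : ℝ} (h : v.EQ x a) (hab : b ≤ a := by linarith) : v.GE x b :=
  Or.inr (by rw [h.2]; exact hab)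

lemma EQ.GT {x : K} {a b : ℝ} (h : v.EQ x a) (hab : b < a := by linarith) : v.GT x b :=
  Or.inr (by rw [h.2]; exact hab)

lemma EQ.LE {x : K} {a b : ℝ} (h : v.EQ x a) (hab : a ≤ b := by linarith) : v.LE x b :=
  ⟨h.1, by rw [h.2]; exact hab⟩

lemma GT.GE {x : K} {a b : ℝ} (h : v.GT x a) (hab : b ≤ a := by linarith) : v.GE x b :=
  h.imp id (fun h => by linarith)

lemma GE.mono {x : K} {a b : ℝ} (h : v.GE x a) (hab : b ≤ a := by linarith) : v.GE x b :=
  h.imp id (fun h => by linarith)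

lemma GT.mono {x : K} {a b : ℝ} (h : v.GT x a) (hab : b ≤ a := by linarith) : v.GT x b :=
  h.imp id (fun h => by linarith)

lemma GE.GT {x : K} {a b : ℝ} (h : v.GE x a) (hab : b < a := by linarith) : v.GT x b :=
  h.imp id (fun h => by linarith)

lemma LE.mono {x : K} {a b : ℝ} (h : v.LE x a) (hab : a ≤ b := by linarith) : v.LE x b :=
  ⟨h.1, by linarith [h.2]⟩

lemma GE_zero (a : ℝ) : v.GE 0 a := Or.inl rfl
lemma GT_zero (a : ℝ) : v.GT 0 a := Or.inl rfl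

lemma EQ_self {x : K} (hx : x ≠ 0) : v.EQ x (v.w x) := ⟨hx, rfl⟩

lemma EQ_one : v.EQ 1 0 := ⟨one_ne_zero, w_one⟩

lemma GE_or_LE (x : K) (a : ℝ) : v.GT x a ∨ v.LE x a := by
  by_cases hx : x = 0
  · exact Or.inl (Or.inl hx)
  · rcases lt_or_ge a (v.w x) with h | h
    · exact Or.inl (Or.inr h)
    · exact Or.inr ⟨hx, h⟩

lemma GT.not_LE {x : K} {a b : ℝ} (h : v.GT x a) (h' : v.LE x b) (hab : b ≤ a := by linarith) :
    False := by
  rcases h with h | h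
  · exact h'.1 h
  · linarith [h'.2]

lemma GE.not_LT {x : K} {a : ℝ} (h : v.GE x a) (hx : x ≠ 0) (h' : v.w x < a) : False := by
  rcases h with h | h
  · exact hx h
  · linarith

lemma GE.le_w {x : K} {a : ℝ} (h : v.GE x a) (hx : x ≠ 0) : a ≤ v.w x :=
  h.resolve_left hx

lemma GT.lt_w {x : K} {a : ℝ} (h : v.GT x a) (hx : x ≠ 0) : a < v.w x :=
  h.resolve_left hx

lemma EQ.neg {x : K} {a : ℝ} (h : v.EQ x a) : v.EQ (-x) a :=
  ⟨neg_ne_zero.mpr h.1, by rw [w_neg, h.2]⟩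

lemma GE.neg {x : K} {a : ℝ} (h : v.GE x a) : v.GE (-x) a :=
  h.imp (fun h => by rw [h, neg_zero]) (fun h => by rwa [w_neg])

lemma GT.neg {x : K} {a : ℝ} (h : v.GT x a) : v.GT (-x) a :=
  h.imp (fun h => by rw [h, neg_zero]) (fun h => by rwa [w_neg])

lemma LE.neg {x : K} {a : ℝ} (h : v.LE x a) : v.LE (-x) a :=
  ⟨neg_ne_zero.mpr h.1, by rw [w_neg]; exact h.2⟩

lemma EQ.mul {x y : K} {a b : ℝ} (hx : v.EQ x a) (hy : v.EQ y b) : v.EQ (x * y) (a + b) :=
  ⟨mul_ne_zero hx.1 hy.1, by rw [v.map_mul _ _ hx.1 hy.1, hx.2, hy.2]⟩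

lemma EQ.inv {x : K} {a : ℝ} (hx : v.EQ x a) : v.EQ x⁻¹ (-a) :=
  ⟨inv_ne_zero hx.1, by rw [w_inv hx.1, hx.2]⟩

lemma EQ.div {x y : K} {a b : ℝ} (hx : v.EQ x a) (hy : v.EQ y b) : v.EQ (x / y) (a - b) :=
  ⟨div_ne_zero hx.1 hy.1, by rw [w_div hx.1 hy.1, hx.2, hy.2]⟩

lemma EQ.pow {x : K} {a : ℝ} (hx : v.EQ x a) (n : ℕ) : v.EQ (x ^ n) (n * a) :=
  ⟨pow_ne_zero n hx.1, by rw [w_pow hx.1, hx.2]⟩

lemma EQ.sq {x : K} {a : ℝ} (hx : v.EQ x a) : v.EQ (x ^ 2) (2 * a) := by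
  simpa using hx.pow 2

lemma GE.mul {x y : K} {a b : ℝ} (hx : v.GE x a) (hy : v.GE y b) : v.GE (x * y) (a + b) := by
  rcases hx with hx | hx
  · exact Or.inl (by rw [hx, zero_mul])
  rcases hy with hy | hy
  · exact Or.inl (by rw [hy, mul_zero])
  by_cases hx0 : x = 0
  · exact Or.inl (by rw [hx0, zero_mul])
  by_cases hy0 : y = 0
  · exact Or.inl (by rw [hy0, mul_zero])
  exact Or.inr (by rw [v.map_mul _ _ hx0 hy0]; linarith)

lemma GT.mul_GE {x y : K} {a b : ℝ} (hx : v.GT x a) (hy : v.GE y b) : v.GT (x * y) (a + b) := by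
  rcases hx with hx | hx
  · exact Or.inl (by rw [hx, zero_mul])
  rcases hy with hy | hy
  · exact Or.inl (by rw [hy, mul_zero])
  by_cases hx0 : x = 0
  · exact Or.inl (by rw [hx0, zero_mul])
  by_cases hy0 : y = 0
  · exact Or.inl (by rw [hy0, mul_zero])
  exact Or.inr (by rw [v.map_mul _ _ hx0 hy0]; linarith)

lemma GE.mul_GT {x y : K} {a b : ℝ} (hx : v.GE x a) (hy : v.GT y b) : v.GT (x * y) (a + b) := by
  rw [mul_comm, add_comm]
  exact hy.mul_GE hx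

lemma LE.mul {x y : K} {a b : ℝ} (hx : v.LE x a) (hy : v.LE y b) : v.LE (x * y) (a + b) :=
  ⟨mul_ne_zero hx.1 hy.1, by rw [v.map_mul _ _ hx.1 hy.1]; linarith [hx.2, hy.2]⟩

lemma GE.pow {x : K} {a : ℝ} (hx : v.GE x a) (n : ℕ) : v.GE (x ^ n) (n * a) := by
  induction n with
  | zero => simpa using (EQ_one (v := v)).GE le_rfl
  | succ n ih =>
    rw [pow_succ]
    have := ih.mul hx
    refine this.mono ?_
    push_cast
    linarith

lemma GE.sq {x : K} {a : ℝ} (hx : v.GE x a) : v.GE (x ^ 2) (2 * a) := by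
  simpa using hx.pow 2

lemma GT.sq {x : K} {a : ℝ} (hx : v.GT x a) : v.GT (x ^ 2) (2 * a) := by
  rw [pow_two]
  exact (hx.mul_GE (hx.GE le_rfl)).mono (by linarith)

lemma LE.sq {x : K} {a : ℝ} (hx : v.LE x a) : v.LE (x ^ 2) (2 * a) := by
  rw [pow_two]
  exact (hx.mul hx).mono (by linarith)

lemma GE.add {x y : K} {a : ℝ} (hx : v.GE x a) (hy : v.GE y a) : v.GE (x + y) a := by
  by_cases hx0 : x = 0
  · rwa [hx0, zero_add]
  by_cases hy0 : y = 0
  · rwa [hy0, add_zero]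
  by_cases hxy : x + y = 0
  · exact Or.inl hxy
  have := v.map_add x y hx0 hy0 hxy
  exact Or.inr (le_trans (le_min (hx.le_w hx0) (hy.le_w hy0)) this)

lemma GT.add {x y : K} {a : ℝ} (hx : v.GT x a) (hy : v.GT y a) : v.GT (x + y) a := by
  by_cases hx0 : x = 0
  · rwa [hx0, zero_add]
  by_cases hy0 : y = 0
  · rwa [hy0, add_zero]
  by_cases hxy : x + y = 0
  · exact Or.inl hxy
  have := v.map_add x y hx0 hy0 hxy
  exact Or.inr (lt_of_lt_of_le (lt_min (hx.lt_w hx0) (hy.lt_w hy0)) this)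

lemma GE.sub {x y : K} {a : ℝ} (hx : v.GE x a) (hy : v.GE y a) : v.GE (x - y) a := by
  rw [sub_eq_add_neg]
  exact hx.add hy.neg

lemma GT.sub {x y : K} {a : ℝ} (hx : v.GT x a) (hy : v.GT y a) : v.GT (x - y) a := by
  rw [sub_eq_add_neg]
  exact hx.add hy.neg

/-- the dominant term wins -/
lemma EQ.add_GT {x y : K} {a : ℝ} (hx : v.EQ x a) (hy : v.GT y a) : v.EQ (x + y) a := by
  have hne : x + y ≠ 0 := by
    intro h
    have hy' : y = -x := by linear_combination h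
    rw [hy'] at hy
    rcases hy with hy | hy
    · exact hx.1 (neg_eq_zero.mp hy)
    · rw [w_neg, hx.2] at hy
      exact lt_irrefl _ hy
  refine ⟨hne, le_antisymm ?_ ?_⟩
  · by_contra hlt
    push Not at hlt
    have h1 : v.GT (x + y) a := Or.inr hlt
    have h2 : v.GT ((x + y) - y) a := h1.sub hy
    rw [add_sub_cancel_right] at h2
    have := h2.lt_w hx.1
    rw [hx.2] at this
    exact lt_irrefl _ this
  · exact ((hx.GE le_rfl).add (hy.GE le_rfl)).le_w hne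

lemma EQ.GT_add {x y : K} {a : ℝ} (hx : v.EQ x a) (hy : v.GT y a) : v.EQ (y + x) a := by
  rw [add_comm]
  exact hx.add_GT hy

lemma EQ.sub_GT {x y : K} {a : ℝ} (hx : v.EQ x a) (hy : v.GT y a) : v.EQ (x - y) a := by
  rw [sub_eq_add_neg]
  exact hx.add_GT hy.neg

lemma EQ.GT_sub {x y : K} {a : ℝ} (hx : v.EQ x a) (hy : v.GT y a) : v.EQ (y - x) a := by
  rw [sub_eq_add_neg, add_comm]
  exact hx.neg.add_GT hy

/-- if `x` has small valuation and `y` larger, the sum has small valuation -/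
lemma LE.add_GT {x y : K} {a : ℝ} (hx : v.LE x a) (hy : v.GT y a) : v.LE (x + y) a := by
  have h := (EQ_self (v := v) hx.1).add_GT (hy.mono hx.2)
  exact ⟨h.1, by rw [h.2]; exact hx.2⟩

lemma GE_natCast (n : ℕ) : v.GE (n : K) 0 := by
  induction n with
  | zero => simpa using GE_zero (v := v) 0
  | succ n ih =>
    push_cast
    exact ih.add ((EQ_one (v := v)).GE le_rfl)

lemma GE_intCast (n : ℤ) : v.GE (n : K) 0 := by
  cases n with
  | ofNat n => simpa using GE_natCast (v := v) n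
  | negSucc n =>
    have := (GE_natCast (v := v) (n + 1)).neg
    simpa [Int.negSucc_eq] using this

lemma GE_ofNat (n : ℕ) [n.AtLeastTwo] : v.GE (OfNat.ofNat n : K) 0 := by
  exact GE_natCast (v := v) n

/-- from `x * y = z` -/
lemma EQ.of_mul_eq_left {x y z : K} {a b : ℝ} (h : x * y = z) (hy : v.EQ y b) (hz : v.EQ z a) :
    v.EQ x (a - b) := by
  have : x = z / y := by
    field_simp [hy.1]
    exact h
  rw [this]
  exact hz.div hy

lemma GE.of_mul_eq_left {x y z : K} {a b : ℝ} (h : x * y = z) (hy : v.EQ y b) (hz : v.GE z a) :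
    v.GE x (a - b) := by
  have : x = z * y⁻¹ := by
    field_simp [hy.1]
    exact h
  rw [this]
  exact (hz.mul (hy.inv.GE le_rfl)).mono (by linarith)

lemma GT.of_mul_eq_left {x y z : K} {a b : ℝ} (h : x * y = z) (hy : v.EQ y b) (hz : v.GT z a) :
    v.GT x (a - b) := by
  have : x = z * y⁻¹ := by
    field_simp [hy.1]
    exact h
  rw [this]
  exact (hz.mul_GE (hy.inv.GE le_rfl)).mono (by linarith)

/-! ### roots of quadratics: `s = X + Y`, `p = X * Y` -/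

/-- `w(X+Y) ≥ g`, `w(XY) ≥ 2g` implies `w X, w Y ≥ g`. -/
lemma GE_of_sum_prod {X Y : K} {g : ℝ} (hs : v.GE (X + Y) g) (hp : v.GE (X * Y) (2 * g)) :
    v.GE X g ∧ v.GE Y g := by
  by_contra hcon
  have key : ∀ X Y : K, v.GE (X + Y) g → v.GE (X * Y) (2 * g) → ¬ v.GE X g → False := by
    intro X Y hs hp hX
    have hX0 : X ≠ 0 := fun h => hX (Or.inl h)
    have hXlt : v.w X < g := by
      by_contra h
      exact hX (Or.inr (not_lt.mp h))
    have hY0 : Y ≠ 0 := by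
      intro h
      rw [h, add_zero] at hs
      exact hX hs
    have hp' := hp.le_w (mul_ne_zero hX0 hY0)
    rw [v.map_mul _ _ hX0 hY0] at hp'
    have hYgt : v.GT Y (v.w X) := Or.inr (by linarith)
    have := (EQ_self (v := v) hX0).add_GT hYgt
    have h2 := hs.le_w this.1
    rw [this.2] at h2
    linarith
  rw [not_and_or] at hcon
  rcases hcon with h | h
  · exact key X Y hs hp h
  · exact key Y X (by rwa [add_comm]) (by rwa [mul_comm]) h

/-- `w(X+Y) ≥ g`, `w(XY) = 2g` implies `w X = w Y = g`. -/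
lemma EQ_of_sum_prod {X Y : K} {g : ℝ} (hs : v.GE (X + Y) g) (hp : v.EQ (X * Y) (2 * g)) :
    v.EQ X g ∧ v.EQ Y g := by
  obtain ⟨hX, hY⟩ := GE_of_sum_prod hs (hp.GE le_rfl)
  have hX0 : X ≠ 0 := left_ne_zero_of_mul hp.1
  have hY0 : Y ≠ 0 := right_ne_zero_of_mul hp.1
  have h := hp.2
  rw [v.map_mul _ _ hX0 hY0] at h
  have h1 := hX.le_w hX0
  have h2 := hY.le_w hY0
  exact ⟨⟨hX0, by linarith⟩, ⟨hY0, by linarith⟩⟩

/-- `w(X+Y) = g`, `w(XY) > 2g`: one root has valuation `g`, the other one is bigger. -/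
lemma EQ_or_of_sum_prod {X Y : K} {g : ℝ} (hs : v.EQ (X + Y) g) (hp : v.GT (X * Y) (2 * g)) :
    (v.EQ X g ∧ v.GT Y g) ∨ (v.EQ Y g ∧ v.GT X g) := by
  obtain ⟨hX, hY⟩ := GE_of_sum_prod (hs.GE le_rfl) (hp.GE le_rfl)
  by_cases hXg : v.GT X g
  · right
    refine ⟨?_, hXg⟩
    have := hs.sub_GT hXg
    rwa [add_sub_cancel_left] at this
  · left
    have hX0 : X ≠ 0 := fun h => hXg (Or.inl h)
    have hXe : v.EQ X g := ⟨hX0, le_antisymm (by
      by_contra h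
      exact hXg (Or.inr (not_le.mp h))) (hX.le_w hX0)⟩
    refine ⟨hXe, ?_⟩
    by_cases hY0 : Y = 0
    · exact Or.inl hY0
    · have := hp.lt_w (mul_ne_zero hX0 hY0)
      rw [v.map_mul _ _ hX0 hY0, hXe.2] at this
      exact Or.inr (by linarith)

end RVal

/-- Abstract "Kummer line" data of the curve `η² = ξ (4 ξ² + β ξ + 4 κ)` on a group `G`. -/
structure KummerData (K : Type*) [Field K] (G : Type*) [AddCommGroup G] where
  ξ : G → Option K
  η : G → K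
  β : K
  κ : K
  ξ_eq_none : ∀ g, ξ g = none ↔ g = 0
  ξ_neg : ∀ g, ξ (-g) = ξ g
  η_neg : ∀ g, η (-g) = - η g
  eq_or_eq_neg : ∀ g g', ξ g = ξ g' → g = g' ∨ g = -g'
  η_sq : ∀ g x, ξ g = some x → η g ^ 2 = x * (4 * x ^ 2 + β * x + 4 * κ)
  addsub : ∀ g₁ g₂ x₁ x₂, ξ g₁ = some x₁ → ξ g₂ = some x₂ → x₁ ≠ x₂ →
    ∃ X Y, ξ (g₁ + g₂) = some X ∧ ξ (g₁ - g₂) = some Y ∧
      X * Y * (x₁ - x₂) ^ 2 = (x₁ * x₂ - κ) ^ 2 ∧
      (X + Y) * (x₁ - x₂) ^ 2 = (x₁ + x₂) * (2 * x₁ * x₂ + 2 * κ) + β * x₁ * x₂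
  dbl_zero : ∀ g, η g = 0 → g + g = 0
  dbl : ∀ g x, ξ g = some x → η g ≠ 0 →
    ∃ X, ξ (g + g) = some X ∧ X * (x * (4 * x ^ 2 + β * x + 4 * κ)) = (x ^ 2 - κ) ^ 2

open Classical in
/-- truncated valuation of a field element -/
noncomputable def muK {K : Type*} [Field K] (v : RVal K) (h : ℝ) (x : K) : ℝ :=
  if x = 0 then h else min (max (v.w x) 0) h

/-- truncated valuation of the `ξ` coordinate -/
noncomputable def mu {K : Type*} [Field K] {G : Type*} [AddCommGroup G]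
    (D : KummerData K G) (v : RVal K) (h : ℝ) (g : G) : ℝ :=
  match D.ξ g with
  | none => 0
  | some x => muK v h x

end Fermat.Agent.S05
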