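import Mathlib

set_option autoImplicit false

namespace Fermat.Agent.S05

namespace Sawtooth

/-- `x` is congruent to `± y` modulo `2 h`. -/
def E (h x y : ℝ) : Prop := ∃ j : ℤ, x = 2 * h * j + y ∨ x = 2 * h * j - y

theorem E_abs {h x y : ℝ} : E h x |y| ↔ E h x y := by
  rcases abs_cases y with ⟨h1, _⟩ | ⟨h1, _⟩
  · rw [h1]
  · rw [h1]
    constructor
    · rintro ⟨j, hj | hj⟩
      · exact ⟨j, Or.inr (by linarith)⟩
      · exact ⟨j, Or.inl (by linarith)⟩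
    · rintro ⟨j, hj | hj⟩
      · exact ⟨j, Or.inr (by linarith)⟩
      · exact ⟨j, Or.inl (by linarith)⟩

theorem E_min {h x u v : ℝ} (hv : v = 2 * h - u) : E h x (min u v) ↔ E h x u := by
  rcases min_cases u v with ⟨h1, _⟩ | ⟨h1, _⟩
  · rw [h1]
  · rw [h1, hv]
    constructor
    · rintro ⟨j, hj | hj⟩
      · exact ⟨j + 1, Or.inr (by push_cast; linarith)⟩
      · exact ⟨j - 1, Or.inl (by push_cast; linarith)⟩
    · rintro ⟨j, hj | hj⟩
      · exact ⟨j + 1, Or.inr (by push_cast; linarith)⟩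
      · exact ⟨j - 1, Or.inl (by push_cast; linarith)⟩

theorem step_add {h X r s : ℝ} (h1 : E h X s) (h0 : E h (X - r) (s - r)) : E h (X + r) (s + r) := by
  obtain ⟨j, hj | hj⟩ := h1
  · exact ⟨j, Or.inl (by linarith)⟩
  · obtain ⟨j', hj' | hj'⟩ := h0
    · exact ⟨j', Or.inl (by linarith)⟩
    · exact ⟨2 * j - j', Or.inr (by push_cast; linarith)⟩

theorem step_sub {h X r s : ℝ} (h1 : E h X s) (h0 : E h (X - r) (s + r)) : E h (X + r) (s - r) := by
  obtain ⟨j, hj | hj⟩ := h1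
  · obtain ⟨j', hj' | hj'⟩ := h0
    · exact ⟨2 * j - j', Or.inl (by push_cast; linarith)⟩
    · exact ⟨j', Or.inr (by linarith)⟩
  · exact ⟨j, Or.inr (by linarith)⟩

end Sawtooth

open Sawtooth in
/-- A sequence obeying the tropical add/sub law is `a k = dist (k r) (2 h ℤ)`
(e.g. the norm of `k • (r : AddCircle (2 h))`); so `a n = 0` forces `n r ∈ 2 h ℤ`. -/
theorem sawtooth {h r : ℝ} (hh : 0 < h) (hr0 : 0 ≤ r) (hrh : r ≤ h) (a : ℕ → ℝ)
    (a0 : a 0 = 0) (a1 : a 1 = r)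
    (step : ∀ k : ℕ,
      (a (k + 2) = |a (k + 1) - r| ∧ a k = min (a (k + 1) + r) (2 * h - a (k + 1) - r)) ∨
      (a (k + 2) = min (a (k + 1) + r) (2 * h - a (k + 1) - r) ∧ a k = |a (k + 1) - r|))
    {n : ℕ} (hn : a n = 0) : ∃ j : ℤ, (n : ℝ) * r = 2 * h * j := by
  have key : ∀ k : ℕ, E h ((k : ℝ) * r) (a k) ∧ E h (((k + 1 : ℕ) : ℝ) * r) (a (k + 1)) := by
    intro k
    induction k with
    | zero =>
      exact ⟨⟨0, Or.inl (by simp [a0])⟩, ⟨0, Or.inl (by simp [a1])⟩⟩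
    | succ k ih =>
      obtain ⟨ih0, ih1⟩ := ih
      refine ⟨ih1, ?_⟩
      have e0 : (k : ℝ) * r = ((k + 1 : ℕ) : ℝ) * r - r := by push_cast; ring
      have e2 : ((k + 1 + 1 : ℕ) : ℝ) * r = ((k + 1 : ℕ) : ℝ) * r + r := by push_cast; ring
      rw [e0] at ih0
      rw [e2]
      rcases step k with ⟨h2, h0⟩ | ⟨h2, h0⟩
      · rw [show k + 1 + 1 = k + 2 from rfl, h2, E_abs]
        rw [h0, E_min (by ring)] at ih0
        exact step_sub ih1 ih0
      · rw [show k + 1 + 1 = k + 2 from rfl, h2, E_min (by ring)]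
        rw [h0, E_abs] at ih0
        exact step_add ih1 ih0
  obtain ⟨j, hj | hj⟩ := (key n).1
  · exact ⟨j, by rw [hj, hn, add_zero]⟩
  · exact ⟨j, by rw [hj, hn, sub_zero]⟩

end Fermat.Agent.S05
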