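import Fermat.Agent.S05.Defs

set_option autoImplicit false

namespace Fermat.Agent.S05

variable {K : Type*} [Field K] {v : RVal K} {h : ℝ} {β κ x₁ x₂ X Y : K}

namespace TropicalB

theorem core_EQ {D S P : K} {d s π : ℝ} (hprod : X * Y * D = P) (hsum : (X + Y) * D = S)
    (hD : v.EQ D d) (hS : v.EQ S s) (hP : v.EQ P π) (hlt : 2 * (s - d) < π - d) :
    (v.EQ X (s - d) ∧ v.EQ Y (π - s)) ∨ (v.EQ Y (s - d) ∧ v.EQ X (π - s)) := by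
  have h1 : v.EQ (X + Y) (s - d) := RVal.EQ.of_mul_eq_left hsum hD hS
  have h2 : v.EQ (X * Y) (π - d) := RVal.EQ.of_mul_eq_left hprod hD hP
  rcases RVal.EQ_or_of_sum_prod h1 (h2.GT hlt) with ⟨hX, -⟩ | ⟨hY, -⟩
  · left
    refine ⟨hX, ?_⟩
    have := RVal.EQ.of_mul_eq_left (x := Y) (y := X) (z := X * Y) (mul_comm _ _) hX h2
    exact this.of_eq (by ring)
  · right
    refine ⟨hY, ?_⟩
    have := RVal.EQ.of_mul_eq_left (x := X) (y := Y) (z := X * Y) rfl hY h2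
    exact this.of_eq (by ring)

theorem core_GE {D S P : K} {d s π : ℝ} (hprod : X * Y * D = P) (hsum : (X + Y) * D = S)
    (hD : v.EQ D d) (hS : v.EQ S s) (hP : v.GE P π) (hlt : 2 * (s - d) < π - d) :
    (v.EQ X (s - d) ∧ v.GE Y (π - s)) ∨ (v.EQ Y (s - d) ∧ v.GE X (π - s)) := by
  have h1 : v.EQ (X + Y) (s - d) := RVal.EQ.of_mul_eq_left hsum hD hS
  have h2 : v.GE (X * Y) (π - d) := RVal.GE.of_mul_eq_left hprod hD hP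
  rcases RVal.EQ_or_of_sum_prod h1 (h2.GT hlt) with ⟨hX, -⟩ | ⟨hY, -⟩
  · left
    refine ⟨hX, ?_⟩
    have := RVal.GE.of_mul_eq_left (x := Y) (y := X) (z := X * Y) (mul_comm _ _) hX h2
    exact this.mono (by linarith)
  · right
    refine ⟨hY, ?_⟩
    have := RVal.GE.of_mul_eq_left (x := X) (y := Y) (z := X * Y) rfl hY h2
    exact this.mono (by linarith)

/-- valuation of the right hand side of the sum formula -/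
theorem sum_EQ (h2 : v.EQ 2 0) (hβ : v.EQ β 0) (hκ : v.EQ κ h) {a b m : ℝ}
    (h₁ : v.EQ x₁ a) (h₂ : v.EQ x₂ b) (hab : a ≤ b) (hm1 : m ≤ a + b) (hm2 : m ≤ h)
    (hm : b < m) :
    v.EQ ((x₁ + x₂) * (2 * x₁ * x₂ + 2 * κ) + β * x₁ * x₂) (a + b) := by
  have e1 : v.EQ (β * x₁ * x₂) (a + b) := ((hβ.mul h₁).mul h₂).of_eq (by ring)
  have e2 : v.GE (x₁ + x₂) a := (h₁.GE le_rfl).add (h₂.GE hab)
  have e3 : v.GE (2 * x₁ * x₂ + 2 * κ) m :=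
    (((h2.mul h₁).mul h₂).GE (by linarith)).add ((h2.mul hκ).GE (by linarith))
  have e4 : v.GT ((x₁ + x₂) * (2 * x₁ * x₂ + 2 * κ)) (a + b) := (e2.mul e3).GT (by linarith)
  exact e1.GT_add e4

end TropicalB

open TropicalB

/-! Valuation case analysis for the add/sub law, part B: `0 < w x₁ ≤ w x₂ < h`. -/

/-- `0 < a < b`, `a + b < h` -/
theorem trop_mid_mid_lt (hh : 0 < h) (h2 : v.EQ 2 0) (hβ : v.EQ β 0) (hκ : v.EQ κ h)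
    (hprod : X * Y * (x₁ - x₂) ^ 2 = (x₁ * x₂ - κ) ^ 2)
    (hsum : (X + Y) * (x₁ - x₂) ^ 2 = (x₁ + x₂) * (2 * x₁ * x₂ + 2 * κ) + β * x₁ * x₂)
    {a b : ℝ} (h₁ : v.EQ x₁ a) (h₂ : v.EQ x₂ b) (ha0 : 0 < a) (hab : a < b) (habh : a + b < h) :
    (v.EQ X (b - a) ∧ v.EQ Y (a + b)) ∨ (v.EQ Y (b - a) ∧ v.EQ X (a + b)) := by
  have hD : v.EQ ((x₁ - x₂) ^ 2) (2 * a) := (h₁.sub_GT (h₂.GT hab)).sq
  have hP : v.EQ ((x₁ * x₂ - κ) ^ 2) (2 * (a + b)) := ((h₁.mul h₂).sub_GT (hκ.GT habh)).sq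
  have hS := sum_EQ (m := a + b) h2 hβ hκ h₁ h₂ hab.le le_rfl habh.le (by linarith)
  rcases core_EQ hprod hsum hD hS hP (by linarith) with ⟨p, q⟩ | ⟨p, q⟩
  · exact Or.inl ⟨p.of_eq (by ring), q.of_eq (by ring)⟩
  · exact Or.inr ⟨p.of_eq (by ring), q.of_eq (by ring)⟩

/-- `0 < a < b < h`, `a + b > h` -/
theorem trop_mid_mid_gt (hh : 0 < h) (h2 : v.EQ 2 0) (hβ : v.EQ β 0) (hκ : v.EQ κ h)
    (hprod : X * Y * (x₁ - x₂) ^ 2 = (x₁ * x₂ - κ) ^ 2)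
    (hsum : (X + Y) * (x₁ - x₂) ^ 2 = (x₁ + x₂) * (2 * x₁ * x₂ + 2 * κ) + β * x₁ * x₂)
    {a b : ℝ} (h₁ : v.EQ x₁ a) (h₂ : v.EQ x₂ b) (ha0 : 0 < a) (hab : a < b) (hbh : b < h)
    (habh : h < a + b) :
    (v.EQ X (b - a) ∧ v.EQ Y (2 * h - a - b)) ∨ (v.EQ Y (b - a) ∧ v.EQ X (2 * h - a - b)) := by
  have hD : v.EQ ((x₁ - x₂) ^ 2) (2 * a) := (h₁.sub_GT (h₂.GT hab)).sq
  have hP : v.EQ ((x₁ * x₂ - κ) ^ 2) (2 * h) := (hκ.GT_sub ((h₁.mul h₂).GT habh)).sq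
  have hS := sum_EQ (m := h) h2 hβ hκ h₁ h₂ hab.le habh.le le_rfl hbh
  rcases core_EQ hprod hsum hD hS hP (by linarith) with ⟨p, q⟩ | ⟨p, q⟩
  · exact Or.inl ⟨p.of_eq (by ring), q.of_eq (by ring)⟩
  · exact Or.inr ⟨p.of_eq (by ring), q.of_eq (by ring)⟩

/-- `0 < a < b`, `a + b = h` -/
theorem trop_mid_mid_eq (hh : 0 < h) (h2 : v.EQ 2 0) (hβ : v.EQ β 0) (hκ : v.EQ κ h)
    (hprod : X * Y * (x₁ - x₂) ^ 2 = (x₁ * x₂ - κ) ^ 2)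
    (hsum : (X + Y) * (x₁ - x₂) ^ 2 = (x₁ + x₂) * (2 * x₁ * x₂ + 2 * κ) + β * x₁ * x₂)
    {a b : ℝ} (h₁ : v.EQ x₁ a) (h₂ : v.EQ x₂ b) (ha0 : 0 < a) (hab : a < b) (habh : a + b = h) :
    (v.EQ X (b - a) ∧ v.GE Y h) ∨ (v.EQ Y (b - a) ∧ v.GE X h) := by
  have hD : v.EQ ((x₁ - x₂) ^ 2) (2 * a) := (h₁.sub_GT (h₂.GT hab)).sq
  have hP : v.GE ((x₁ * x₂ - κ) ^ 2) (2 * h) :=
    (((h₁.mul h₂).GE habh.ge).sub (hκ.GE le_rfl)).sq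
  have hS := sum_EQ (m := h) h2 hβ hκ h₁ h₂ hab.le habh.ge le_rfl (by linarith)
  rcases core_GE hprod hsum hD hS hP (by linarith) with ⟨p, q⟩ | ⟨p, q⟩
  · exact Or.inl ⟨p.of_eq (by ring), q.mono (by linarith)⟩
  · exact Or.inr ⟨p.of_eq (by ring), q.mono (by linarith)⟩

/-- `w x₁ = w x₂ = a`, `0 < 2 a < h` -/
theorem trop_same_lt (hh : 0 < h) (h2 : v.EQ 2 0) (hβ : v.EQ β 0) (hκ : v.EQ κ h)
    (hne : x₁ ≠ x₂)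
    (hprod : X * Y * (x₁ - x₂) ^ 2 = (x₁ * x₂ - κ) ^ 2)
    (hsum : (X + Y) * (x₁ - x₂) ^ 2 = (x₁ + x₂) * (2 * x₁ * x₂ + 2 * κ) + β * x₁ * x₂)
    {a : ℝ} (h₁ : v.EQ x₁ a) (h₂ : v.EQ x₂ a) (ha0 : 0 < a) (hah : 2 * a < h) :
    (v.LE X 0 ∧ v.EQ Y (2 * a)) ∨ (v.LE Y 0 ∧ v.EQ X (2 * a)) := by
  have hne' : x₁ - x₂ ≠ 0 := sub_ne_zero.mpr hne
  have hδ : a ≤ v.w (x₁ - x₂) := ((h₁.GE le_rfl).sub (h₂.GE le_rfl)).le_w hne'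
  have hD : v.EQ ((x₁ - x₂) ^ 2) (2 * v.w (x₁ - x₂)) := (RVal.EQ_self hne').sq
  have hP : v.EQ ((x₁ * x₂ - κ) ^ 2) (2 * (a + a)) :=
    ((h₁.mul h₂).sub_GT (hκ.GT (by linarith))).sq
  have hS := sum_EQ (m := a + a) h2 hβ hκ h₁ h₂ le_rfl le_rfl (by linarith) (by linarith)
  rcases core_EQ hprod hsum hD hS hP (by linarith) with ⟨p, q⟩ | ⟨p, q⟩
  · exact Or.inl ⟨p.LE (by linarith), q.of_eq (by ring)⟩
  · exact Or.inr ⟨p.LE (by linarith), q.of_eq (by ring)⟩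

/-- `w x₁ = w x₂ = a < h < 2 a` -/
theorem trop_same_gt (hh : 0 < h) (h2 : v.EQ 2 0) (hβ : v.EQ β 0) (hκ : v.EQ κ h)
    (hne : x₁ ≠ x₂)
    (hprod : X * Y * (x₁ - x₂) ^ 2 = (x₁ * x₂ - κ) ^ 2)
    (hsum : (X + Y) * (x₁ - x₂) ^ 2 = (x₁ + x₂) * (2 * x₁ * x₂ + 2 * κ) + β * x₁ * x₂)
    {a : ℝ} (h₁ : v.EQ x₁ a) (h₂ : v.EQ x₂ a) (hah : a < h) (hah2 : h < 2 * a) :
    (v.LE X 0 ∧ v.EQ Y (2 * h - 2 * a)) ∨ (v.LE Y 0 ∧ v.EQ X (2 * h - 2 * a)) := by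
  have hne' : x₁ - x₂ ≠ 0 := sub_ne_zero.mpr hne
  have hδ : a ≤ v.w (x₁ - x₂) := ((h₁.GE le_rfl).sub (h₂.GE le_rfl)).le_w hne'
  have hD : v.EQ ((x₁ - x₂) ^ 2) (2 * v.w (x₁ - x₂)) := (RVal.EQ_self hne').sq
  have hP : v.EQ ((x₁ * x₂ - κ) ^ 2) (2 * h) :=
    (hκ.GT_sub ((h₁.mul h₂).GT (by linarith))).sq
  have hS := sum_EQ (m := h) h2 hβ hκ h₁ h₂ le_rfl (by linarith) le_rfl hah
  rcases core_EQ hprod hsum hD hS hP (by linarith) with ⟨p, q⟩ | ⟨p, q⟩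
  · exact Or.inl ⟨p.LE (by linarith), q.of_eq (by ring)⟩
  · exact Or.inr ⟨p.LE (by linarith), q.of_eq (by ring)⟩

/-- `w x₁ = w x₂ = a`, `2 a = h` -/
theorem trop_same_eq (hh : 0 < h) (h2 : v.EQ 2 0) (hβ : v.EQ β 0) (hκ : v.EQ κ h)
    (hne : x₁ ≠ x₂)
    (hprod : X * Y * (x₁ - x₂) ^ 2 = (x₁ * x₂ - κ) ^ 2)
    (hsum : (X + Y) * (x₁ - x₂) ^ 2 = (x₁ + x₂) * (2 * x₁ * x₂ + 2 * κ) + β * x₁ * x₂)
    {a : ℝ} (h₁ : v.EQ x₁ a) (h₂ : v.EQ x₂ a) (hah2 : 2 * a = h) :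
    (v.LE X 0 ∧ v.GE Y h) ∨ (v.LE Y 0 ∧ v.GE X h) := by
  have hne' : x₁ - x₂ ≠ 0 := sub_ne_zero.mpr hne
  have hδ : a ≤ v.w (x₁ - x₂) := ((h₁.GE le_rfl).sub (h₂.GE le_rfl)).le_w hne'
  have hD : v.EQ ((x₁ - x₂) ^ 2) (2 * v.w (x₁ - x₂)) := (RVal.EQ_self hne').sq
  have hP : v.GE ((x₁ * x₂ - κ) ^ 2) (2 * h) :=
    (((h₁.mul h₂).GE (by linarith)).sub (hκ.GE le_rfl)).sq
  have hS := sum_EQ (m := h) h2 hβ hκ h₁ h₂ le_rfl (by linarith) le_rfl (by linarith)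
  rcases core_GE hprod hsum hD hS hP (by linarith) with ⟨p, q⟩ | ⟨p, q⟩
  · exact Or.inl ⟨p.LE (by linarith), q.mono (by linarith)⟩
  · exact Or.inr ⟨p.LE (by linarith), q.mono (by linarith)⟩

end Fermat.Agent.S05
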