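import Fermat.Agent.S05.TropicalA
import Fermat.Agent.S05.TropicalB
import Fermat.Agent.S05.Sawtooth

set_option autoImplicit false

namespace Fermat.Agent.S05

variable {K : Type*} [Field K] {v : RVal K} {h : ℝ}

lemma muK_of_LE (hh : 0 < h) {x : K} (hx : v.LE x 0) : muK v h x = 0 := by
  unfold muK
  rw [if_neg hx.1, max_eq_right hx.2, min_eq_left hh.le]

lemma muK_of_EQ {x : K} {a : ℝ} (hx : v.EQ x a) (ha0 : 0 ≤ a) (hah : a ≤ h) :
    muK v h x = a := by
  unfold muK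
  rw [if_neg hx.1, hx.2, max_eq_left ha0, min_eq_left hah]

lemma muK_of_GE (hh : 0 < h) {x : K} (hx : v.GE x h) : muK v h x = h := by
  unfold muK
  by_cases hx0 : x = 0
  · rw [if_pos hx0]
  · have := hx.le_w hx0
    rw [if_neg hx0, max_eq_left (by linarith), min_eq_right this]

lemma muK_cases (hh : 0 < h) (x : K) :
    (v.LE x 0 ∧ muK v h x = 0) ∨ (∃ a, v.EQ x a ∧ 0 < a ∧ a < h ∧ muK v h x = a) ∨
      (v.GE x h ∧ muK v h x = h) := by
  by_cases hx0 : x = 0
  · exact Or.inr (Or.inr ⟨Or.inl hx0, muK_of_GE hh (Or.inl hx0)⟩)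
  rcases le_or_gt (v.w x) 0 with h1 | h1
  · exact Or.inl ⟨⟨hx0, h1⟩, muK_of_LE hh ⟨hx0, h1⟩⟩
  rcases lt_or_ge (v.w x) h with h2 | h2
  · exact Or.inr (Or.inl ⟨v.w x, ⟨hx0, rfl⟩, h1, h2, muK_of_EQ ⟨hx0, rfl⟩ h1.le h2.le⟩)
  · exact Or.inr (Or.inr ⟨Or.inr h2, muK_of_GE hh (Or.inr h2)⟩)

lemma muK_nonneg (hh : 0 < h) (x : K) : 0 ≤ muK v h x := by
  rcases muK_cases (v := v) hh x with ⟨-, h1⟩ | ⟨a, -, h1, h2, h3⟩ | ⟨-, h1⟩ <;> linarith

lemma muK_le (hh : 0 < h) (x : K) : muK v h x ≤ h := by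
  rcases muK_cases (v := v) hh x with ⟨-, h1⟩ | ⟨a, -, h1, h2, h3⟩ | ⟨-, h1⟩ <;> linarith

/-- the two possible outcomes -/
def TropPair (h m₁ m₂ s d : ℝ) : Prop :=
  (s = |m₁ - m₂| ∧ d = min (m₁ + m₂) (2 * h - m₁ - m₂)) ∨
    (s = min (m₁ + m₂) (2 * h - m₁ - m₂) ∧ d = |m₁ - m₂|)

lemma TropPair.swap {m₁ m₂ s d : ℝ} (H : TropPair h m₁ m₂ s d) : TropPair h m₁ m₂ d s := by
  rcases H with ⟨h1, h2⟩ | ⟨h1, h2⟩
  · exact Or.inr ⟨h2, h1⟩
  · exact Or.inl ⟨h2, h1⟩

lemma TropPair.comm {m₁ m₂ s d : ℝ} (H : TropPair h m₁ m₂ s d) : TropPair h m₂ m₁ s d := by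
  unfold TropPair at *
  rw [abs_sub_comm m₂ m₁, add_comm m₂ m₁, show 2 * h - m₂ - m₁ = 2 * h - m₁ - m₂ by ring]
  exact H

lemma TropPair.mk' {m₁ m₂ s d A B : ℝ} (hA : |m₁ - m₂| = A)
    (hB : min (m₁ + m₂) (2 * h - m₁ - m₂) = B)
    (H : (s = A ∧ d = B) ∨ (d = A ∧ s = B)) : TropPair h m₁ m₂ s d := by
  subst hA hB
  rcases H with ⟨h1, h2⟩ | ⟨h1, h2⟩
  · exact Or.inl ⟨h1, h2⟩
  · exact Or.inr ⟨h2, h1⟩

variable {β κ x₁ x₂ X Y : K}

/-- ordered version: class of `x₁` is at most the class of `x₂` -/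
private lemma lemmaT_field_aux (hh : 0 < h) (h2 : v.EQ 2 0) (hβ : v.EQ β 0) (hκ : v.EQ κ h)
    (hne : x₁ ≠ x₂)
    (hprod : X * Y * (x₁ - x₂) ^ 2 = (x₁ * x₂ - κ) ^ 2)
    (hsum : (X + Y) * (x₁ - x₂) ^ 2 = (x₁ + x₂) * (2 * x₁ * x₂ + 2 * κ) + β * x₁ * x₂)
    (hle : muK v h x₁ ≤ muK v h x₂) :
    TropPair h (muK v h x₁) (muK v h x₂) (muK v h X) (muK v h Y) := by
  rcases muK_cases (v := v) hh x₁ with ⟨c1, e1⟩ | ⟨a, c1, ha0, hah, e1⟩ | ⟨c1, e1⟩ <;>
  rcases muK_cases (v := v) hh x₂ with ⟨c2, e2⟩ | ⟨b, c2, hb0, hbh, e2⟩ | ⟨c2, e2⟩ <;>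
  rw [e1, e2] at hle ⊢
  · obtain ⟨hX, hY⟩ := trop_zero_zero hh h2 hβ hκ hne hprod hsum c1 c2
    rw [muK_of_LE hh hX, muK_of_LE hh hY]
    refine TropPair.mk' (A := 0) (B := 0) (by simp) (by simp [hh.le]) (Or.inl ⟨rfl, rfl⟩)
  · obtain ⟨hX, hY⟩ := trop_zero_mid hh h2 hβ hκ hprod hsum c1 c2 hb0 hbh
    rw [muK_of_EQ hX hb0.le hbh.le, muK_of_EQ hY hb0.le hbh.le]
    refine TropPair.mk' (A := b) (B := b) ?_ ?_ (Or.inl ⟨rfl, rfl⟩)
    · rw [zero_sub, abs_neg, abs_of_pos hb0]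
    · rw [min_eq_left (by linarith)]; ring
  · obtain ⟨hX, hY⟩ := trop_zero_top hh h2 hβ hκ hprod hsum c1 c2
    rw [muK_of_GE hh hX, muK_of_GE hh hY]
    refine TropPair.mk' (A := h) (B := h) ?_ ?_ (Or.inl ⟨rfl, rfl⟩)
    · rw [zero_sub, abs_neg, abs_of_pos hh]
    · rw [min_eq_left (by linarith)]; ring
  · exact absurd hle (by linarith)
  · -- mid mid
    rcases lt_or_eq_of_le hle with hab | hab
    · rcases lt_trichotomy (a + b) h with habh | habh | habh
      · have := trop_mid_mid_lt hh h2 hβ hκ hprod hsum c1 c2 ha0 hab habh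
        refine TropPair.mk' (A := b - a) (B := a + b) ?_ ?_ ?_
        · rw [abs_sub_comm, abs_of_pos (by linarith)]
        · rw [min_eq_left (by linarith)]
        · rcases this with ⟨hX, hY⟩ | ⟨hY, hX⟩
          · exact Or.inl ⟨muK_of_EQ hX (by linarith) (by linarith),
              muK_of_EQ hY (by linarith) (by linarith)⟩
          · exact Or.inr ⟨muK_of_EQ hY (by linarith) (by linarith),
              muK_of_EQ hX (by linarith) (by linarith)⟩
      · have := trop_mid_mid_eq hh h2 hβ hκ hprod hsum c1 c2 ha0 hab habh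
        refine TropPair.mk' (A := b - a) (B := h) ?_ ?_ ?_
        · rw [abs_sub_comm, abs_of_pos (by linarith)]
        · rw [min_eq_left (by linarith)]; exact habh
        · rcases this with ⟨hX, hY⟩ | ⟨hY, hX⟩
          · exact Or.inl ⟨muK_of_EQ hX (by linarith) (by linarith), muK_of_GE hh hY⟩
          · exact Or.inr ⟨muK_of_EQ hY (by linarith) (by linarith), muK_of_GE hh hX⟩
      · have := trop_mid_mid_gt hh h2 hβ hκ hprod hsum c1 c2 ha0 hab hbh habh
        refine TropPair.mk' (A := b - a) (B := 2 * h - a - b) ?_ ?_ ?_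
        · rw [abs_sub_comm, abs_of_pos (by linarith)]
        · rw [min_eq_right (by linarith)]
        · rcases this with ⟨hX, hY⟩ | ⟨hY, hX⟩
          · exact Or.inl ⟨muK_of_EQ hX (by linarith) (by linarith),
              muK_of_EQ hY (by linarith) (by linarith)⟩
          · exact Or.inr ⟨muK_of_EQ hY (by linarith) (by linarith),
              muK_of_EQ hX (by linarith) (by linarith)⟩
    · subst hab
      rcases lt_trichotomy (2 * a) h with habh | habh | habh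
      · have := trop_same_lt hh h2 hβ hκ hne hprod hsum c1 c2 ha0 habh
        refine TropPair.mk' (A := 0) (B := 2 * a) (by simp) ?_ ?_
        · rw [min_eq_left (by linarith)]; ring
        · rcases this with ⟨hX, hY⟩ | ⟨hY, hX⟩
          · exact Or.inl ⟨muK_of_LE hh hX, muK_of_EQ hY (by linarith) (by linarith)⟩
          · exact Or.inr ⟨muK_of_LE hh hY, muK_of_EQ hX (by linarith) (by linarith)⟩
      · have := trop_same_eq hh h2 hβ hκ hne hprod hsum c1 c2 habh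
        refine TropPair.mk' (A := 0) (B := h) (by simp) ?_ ?_
        · rw [min_eq_left (by linarith)]; linarith
        · rcases this with ⟨hX, hY⟩ | ⟨hY, hX⟩
          · exact Or.inl ⟨muK_of_LE hh hX, muK_of_GE hh hY⟩
          · exact Or.inr ⟨muK_of_LE hh hY, muK_of_GE hh hX⟩
      · have := trop_same_gt hh h2 hβ hκ hne hprod hsum c1 c2 hah habh
        refine TropPair.mk' (A := 0) (B := 2 * h - 2 * a) (by simp) ?_ ?_
        · rw [min_eq_right (by linarith)]; ring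
        · rcases this with ⟨hX, hY⟩ | ⟨hY, hX⟩
          · exact Or.inl ⟨muK_of_LE hh hX, muK_of_EQ hY (by linarith) (by linarith)⟩
          · exact Or.inr ⟨muK_of_LE hh hY, muK_of_EQ hX (by linarith) (by linarith)⟩
  · obtain ⟨hX, hY⟩ := trop_mid_top hh h2 hβ hκ hprod hsum c1 ha0 hah c2
    rw [muK_of_EQ hX (by linarith) (by linarith), muK_of_EQ hY (by linarith) (by linarith)]
    refine TropPair.mk' (A := h - a) (B := h - a) ?_ ?_ (Or.inl ⟨rfl, rfl⟩)
    · rw [abs_sub_comm, abs_of_pos (by linarith)]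
    · rw [min_eq_right (by linarith)]; ring
  · exact absurd hle (by linarith)
  · exact absurd hle (by linarith)
  · obtain ⟨hX, hY⟩ := trop_top_top hh h2 hβ hκ hne hprod hsum c1 c2
    rw [muK_of_LE hh hX, muK_of_LE hh hY]
    refine TropPair.mk' (A := 0) (B := 0) (by simp) ?_ (Or.inl ⟨rfl, rfl⟩)
    rw [min_eq_right (by linarith)]; ring

theorem lemmaT_field (hh : 0 < h) (h2 : v.EQ 2 0) (hβ : v.EQ β 0) (hκ : v.EQ κ h)
    (hne : x₁ ≠ x₂)
    (hprod : X * Y * (x₁ - x₂) ^ 2 = (x₁ * x₂ - κ) ^ 2)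
    (hsum : (X + Y) * (x₁ - x₂) ^ 2 = (x₁ + x₂) * (2 * x₁ * x₂ + 2 * κ) + β * x₁ * x₂) :
    TropPair h (muK v h x₁) (muK v h x₂) (muK v h X) (muK v h Y) := by
  rcases le_total (muK v h x₁) (muK v h x₂) with hle | hle
  · exact lemmaT_field_aux hh h2 hβ hκ hne hprod hsum hle
  · refine (lemmaT_field_aux hh h2 hβ hκ hne.symm ?_ ?_ hle).comm
    · linear_combination hprod
    · linear_combination hsum

theorem lemmaT_dbl (hh : 0 < h) (h2 : v.EQ 2 0) (hβ : v.EQ β 0) (hκ : v.EQ κ h) {x : K}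
    (hX : X * (x * (4 * x ^ 2 + β * x + 4 * κ)) = (x ^ 2 - κ) ^ 2) :
    muK v h X = min (muK v h x + muK v h x) (2 * h - muK v h x - muK v h x) := by
  rcases muK_cases (v := v) hh x with ⟨c1, e1⟩ | ⟨a, c1, ha0, hah, e1⟩ | ⟨c1, e1⟩ <;> rw [e1]
  · rw [muK_of_LE hh (trop_dbl_zero hh h2 hβ hκ hX c1), min_eq_left (by linarith)]; ring
  · rcases lt_trichotomy (2 * a) h with habh | habh | habh
    · rw [muK_of_EQ (trop_dbl_mid_lt hh h2 hβ hκ hX c1 ha0 habh) (by linarith) (by linarith),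
        min_eq_left (by linarith)]; ring
    · rw [muK_of_GE hh (trop_dbl_mid_eq hh h2 hβ hκ hX c1 habh), min_eq_left (by linarith)]
      linarith
    · rw [muK_of_EQ (trop_dbl_mid_gt hh h2 hβ hκ hX c1 hah habh) (by linarith) (by linarith),
        min_eq_right (by linarith)]; ring
  · rw [muK_of_LE hh (trop_dbl_top hh h2 hβ hκ hX c1), min_eq_right (by linarith)]; ring

theorem lemmaT_two_torsion (hh : 0 < h) (h2 : v.EQ 2 0) (hβ : v.EQ β 0) (hκ : v.EQ κ h) {x : K}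
    (hx : x * (4 * x ^ 2 + β * x + 4 * κ) = 0) :
    0 = min (muK v h x + muK v h x) (2 * h - muK v h x - muK v h x) := by
  rcases trop_two_torsion hh h2 hβ hκ hx with c | c
  · rw [muK_of_LE hh c, min_eq_left (by linarith)]; ring
  · rw [muK_of_GE hh c, min_eq_right (by linarith)]; ring

/-! ### group level -/

variable {G : Type*} [AddCommGroup G] (D : KummerData K G)

lemma mu_zero : mu D v h 0 = 0 := by
  unfold mu
  rw [(D.ξ_eq_none 0).mpr rfl]

lemma mu_some {g : G} {x : K} (hx : D.ξ g = some x) : mu D v h g = muK v h x := by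
  unfold mu
  rw [hx]

lemma mu_neg (g : G) : mu D v h (-g) = mu D v h g := by
  unfold mu
  rw [D.ξ_neg]

lemma mu_nonneg (hh : 0 < h) (g : G) : 0 ≤ mu D v h g := by
  unfold mu
  cases D.ξ g with
  | none => exact le_rfl
  | some x => exact muK_nonneg hh x

lemma mu_le (hh : 0 < h) (g : G) : mu D v h g ≤ h := by
  unfold mu
  cases D.ξ g with
  | none => exact hh.le
  | some x => exact muK_le hh x

lemma mu_dbl (hh : 0 < h) (h2 : v.EQ 2 0) (hβ : v.EQ D.β 0) (hκ : v.EQ D.κ h) (g : G) :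
    mu D v h (g + g) = min (mu D v h g + mu D v h g) (2 * h - mu D v h g - mu D v h g) := by
  cases hx : D.ξ g with
  | none =>
    have hg : g = 0 := (D.ξ_eq_none g).mp hx
    subst hg
    rw [add_zero, mu_zero, min_eq_left (by linarith)]; ring
  | some x =>
    rw [mu_some D hx]
    by_cases hη : D.η g = 0
    · rw [D.dbl_zero g hη, mu_zero]
      refine lemmaT_two_torsion hh h2 hβ hκ ?_
      rw [← D.η_sq g x hx, hη]; ring
    · obtain ⟨X, hX, hXe⟩ := D.dbl g x hx hη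
      rw [mu_some D hX]
      exact lemmaT_dbl hh h2 hβ hκ hXe

theorem lemmaT (hh : 0 < h) (h2 : v.EQ 2 0) (hβ : v.EQ D.β 0) (hκ : v.EQ D.κ h) (g₁ g₂ : G) :
    TropPair h (mu D v h g₁) (mu D v h g₂) (mu D v h (g₁ + g₂)) (mu D v h (g₁ - g₂)) := by
  cases hx₁ : D.ξ g₁ with
  | none =>
    have hg : g₁ = 0 := (D.ξ_eq_none g₁).mp hx₁
    subst hg
    rw [zero_add, zero_sub, mu_neg, mu_zero]
    have h0 := mu_nonneg D (v := v) hh g₂
    have h1 := mu_le D (v := v) hh g₂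
    refine TropPair.mk' (A := mu D v h g₂) (B := mu D v h g₂) ?_ ?_ (Or.inl ⟨rfl, rfl⟩)
    · rw [zero_sub, abs_neg, abs_of_nonneg h0]
    · rw [min_eq_left (by linarith)]; ring
  | some x₁ =>
    cases hx₂ : D.ξ g₂ with
    | none =>
      have hg : g₂ = 0 := (D.ξ_eq_none g₂).mp hx₂
      subst hg
      rw [add_zero, sub_zero, mu_zero]
      have h0 := mu_nonneg D (v := v) hh g₁
      have h1 := mu_le D (v := v) hh g₁
      refine TropPair.mk' (A := mu D v h g₁) (B := mu D v h g₁) ?_ ?_ (Or.inl ⟨rfl, rfl⟩)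
      · rw [sub_zero, abs_of_nonneg h0]
      · rw [min_eq_left (by linarith)]; ring
    | some x₂ =>
      by_cases hne : x₁ = x₂
      · subst hne
        rcases D.eq_or_eq_neg g₁ g₂ (hx₁.trans hx₂.symm) with hg | hg
        · subst hg
          rw [sub_self, mu_zero, mu_dbl D hh h2 hβ hκ]
          exact Or.inr ⟨rfl, by simp⟩
        · subst hg
          rw [neg_add_cancel, mu_zero, mu_neg, show -g₂ - g₂ = -(g₂ + g₂) by abel, mu_neg,
            mu_dbl D hh h2 hβ hκ]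
          exact Or.inl ⟨by simp, rfl⟩
      · obtain ⟨X, Y, hX, hY, hprod, hsum⟩ := D.addsub g₁ g₂ x₁ x₂ hx₁ hx₂ hne
        rw [mu_some D hx₁, mu_some D hx₂, mu_some D hX, mu_some D hY]
        exact lemmaT_field hh h2 hβ hκ hne hprod hsum

/-- torsion points outside the identity component have constrained valuation -/
theorem val_of_torsion (hh : 0 < h) (h2 : v.EQ 2 0) (hβ : v.EQ D.β 0) (hκ : v.EQ D.κ h)
    {g : G} {x : K} (hx : D.ξ g = some x) (hxpos : v.GT x 0) {n : ℕ} (hn : Odd n)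
    (hg : n • g = 0) :
    x ≠ 0 ∧ v.w x < h ∧ ∃ j : ℤ, (n : ℝ) * v.w x = 2 * h * j := by
  set r := mu D v h g with hr
  have hr0 := mu_nonneg D (v := v) hh g
  have hrh := mu_le D (v := v) hh g
  obtain ⟨j, hj⟩ := sawtooth hh hr0 hrh (fun k => mu D v h (k • g)) (by simp [mu_zero])
    (by simp) (fun k => by
      have := lemmaT D (v := v) hh h2 hβ hκ ((k + 1) • g) g
      rw [show (k + 1) • g + g = (k + 2) • g by
          rw [add_smul, add_smul, one_smul, two_smul]; abel,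
        show (k + 1) • g - g = k • g by rw [add_smul, one_smul]; abel] at this
      exact this) (n := n) (by simp [hg, mu_zero])
  have hrne : r ≠ h := by
    intro hrh'
    rw [← hr, hrh'] at hj
    have h3 : (n : ℝ) = 2 * j := by
      have : h * ((n : ℝ) - 2 * j) = 0 := by linarith
      rcases mul_eq_zero.mp this with h4 | h4
      · exact absurd h4 hh.ne'
      · linarith
    have h4 : (n : ℤ) = 2 * j := by exact_mod_cast h3
    obtain ⟨m, hm⟩ := hn
    rw [hm] at h4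
    push_cast at h4
    omega
  rw [hr, mu_some D hx] at hrne
  rcases muK_cases (v := v) hh x with ⟨c1, e1⟩ | ⟨a, c1, ha0, hah, e1⟩ | ⟨c1, e1⟩
  · exact absurd c1 (fun c => hxpos.not_LE c le_rfl)
  · refine ⟨c1.1, by rw [c1.2]; exact hah, j, ?_⟩
    rw [← hr, hr, mu_some D hx, e1] at hj
    rw [c1.2]; exact hj
  · exact absurd e1 hrne

end Fermat.Agent.S05
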