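import Fermat.Agent.S05.Defs

set_option autoImplicit false
set_option linter.unusedVariables false

namespace Fermat.Agent.S05

variable {K : Type*} [Field K] {v : RVal K} {h : ℝ} {β κ x₁ x₂ X Y : K}

/-! Valuation case analysis for the add/sub law, part A: at least one point in the
"identity component" (`w x ≤ 0`) or both in the "opposite component" (`w x ≥ h`).
The primed versions do not need `2` to be a unit. -/

namespace RVal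

/-- `w(XY) = p ≤ 0`, `w(X+Y) ≥ p` implies `w X, w Y ≤ 0`. -/
lemma LE_zero_of_sum_prod {X Y : K} {p : ℝ} (hp : v.EQ (X * Y) p) (hs : v.GE (X + Y) p)
    (hp0 : p ≤ 0) : v.LE X 0 ∧ v.LE Y 0 := by
  have key : ∀ X Y : K, v.EQ (X * Y) p → v.GE (X + Y) p → v.LE X 0 := by
    intro X Y hp hs
    have hX0 : X ≠ 0 := left_ne_zero_of_mul hp.1
    have hY0 : Y ≠ 0 := right_ne_zero_of_mul hp.1
    refine ⟨hX0, ?_⟩
    by_contra hlt
    push Not at hlt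
    have hw := hp.2
    rw [v.map_mul _ _ hX0 hY0] at hw
    have hXgt : v.GT X (v.w Y) := Or.inr (by linarith)
    have h1 := (EQ_self (v := v) hY0).GT_add hXgt
    have h2 := hs.le_w h1.1
    rw [h1.2] at h2
    linarith
  exact ⟨key X Y hp hs, key Y X (by rwa [mul_comm]) (by rwa [add_comm])⟩

lemma GE_two : v.GE (2 : K) 0 := GE_ofNat 2

lemma GE_four : v.GE (4 : K) 0 := GE_ofNat 4

lemma GE.two_mul {x : K} {a : ℝ} (hx : v.GE x a) : v.GE (2 * x) a :=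
  (GE_two.mul hx).mono (by linarith)

lemma GE.four_mul {x : K} {a : ℝ} (hx : v.GE x a) : v.GE (4 * x) a :=
  (GE_four.mul hx).mono (by linarith)

lemma GT.four_mul {x : K} {a : ℝ} (hx : v.GT x a) : v.GT (4 * x) a :=
  (GE_four.mul_GT hx).mono (by linarith)

lemma GT.two_mul {x : K} {a : ℝ} (hx : v.GT x a) : v.GT (2 * x) a :=
  (GE_two.mul_GT hx).mono (by linarith)

end RVal

open RVal

/-- both `w x₁, w x₂ ≤ 0` -/
theorem trop_zero_zero' (hh : 0 < h) (hβ : v.EQ β 0) (hκ : v.EQ κ h)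
    (hne : x₁ ≠ x₂)
    (hprod : X * Y * (x₁ - x₂) ^ 2 = (x₁ * x₂ - κ) ^ 2)
    (hsum : (X + Y) * (x₁ - x₂) ^ 2 = (x₁ + x₂) * (2 * x₁ * x₂ + 2 * κ) + β * x₁ * x₂)
    (h₁ : v.LE x₁ 0) (h₂ : v.LE x₂ 0) : v.LE X 0 ∧ v.LE Y 0 := by
  have e₁ := EQ_self (v := v) h₁.1
  have e₂ := EQ_self (v := v) h₂.1
  have hw₁ := h₁.2
  have hw₂ := h₂.2
  have hD0 : x₁ - x₂ ≠ 0 := sub_ne_zero.mpr hne
  have eD := EQ_self (v := v) hD0
  have hm₁ : min (v.w x₁) (v.w x₂) ≤ v.w x₁ := min_le_left _ _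
  have hm₂ : min (v.w x₁) (v.w x₂) ≤ v.w x₂ := min_le_right _ _
  have hmm : min (v.w x₁) (v.w x₂) = v.w x₁ ∨ min (v.w x₁) (v.w x₂) = v.w x₂ := by
    rcases le_total (v.w x₁) (v.w x₂) with h | h
    · exact Or.inl (min_eq_left h)
    · exact Or.inr (min_eq_right h)
  have hd : min (v.w x₁) (v.w x₂) ≤ v.w (x₁ - x₂) :=
    ((e₁.GE hm₁).sub (e₂.GE hm₂)).le_w hD0
  have e12 := e₁.mul e₂
  have hnum : v.EQ (x₁ * x₂ - κ) (v.w x₁ + v.w x₂) := e12.sub_GT (hκ.GT (by linarith))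
  have hP := EQ.of_mul_eq_left hprod eD.sq hnum.sq
  have hA : v.GE ((x₁ + x₂) * (2 * x₁ * x₂ + 2 * κ) + β * x₁ * x₂)
      (2 * (v.w x₁ + v.w x₂)) := by
    refine GE.add ?_ ?_
    · have a1 : v.GE (x₁ + x₂) (min (v.w x₁) (v.w x₂)) := (e₁.GE hm₁).add (e₂.GE hm₂)
      have a2 : v.GE (2 * x₁ * x₂ + 2 * κ) (v.w x₁ + v.w x₂) := by
        refine GE.add ?_ ?_
        · rw [mul_assoc]
          exact (e12.GE le_rfl).two_mul
        · exact (hκ.GE (by linarith)).two_mul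
      refine (a1.mul a2).mono ?_
      rcases hmm with h | h <;> rw [h] <;> linarith
    · rw [mul_assoc]
      exact ((hβ.GE le_rfl).mul (e12.GE le_rfl)).mono (by linarith)
  have hS := GE.of_mul_eq_left hsum eD.sq hA
  refine LE_zero_of_sum_prod hP hS ?_
  rcases hmm with h | h <;> rw [h] at hd <;> linarith

/-- both `w x₁, w x₂ ≤ 0` -/
theorem trop_zero_zero (hh : 0 < h) (h2 : v.EQ 2 0) (hβ : v.EQ β 0) (hκ : v.EQ κ h)
    (hne : x₁ ≠ x₂)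
    (hprod : X * Y * (x₁ - x₂) ^ 2 = (x₁ * x₂ - κ) ^ 2)
    (hsum : (X + Y) * (x₁ - x₂) ^ 2 = (x₁ + x₂) * (2 * x₁ * x₂ + 2 * κ) + β * x₁ * x₂)
    (h₁ : v.LE x₁ 0) (h₂ : v.LE x₂ 0) : v.LE X 0 ∧ v.LE Y 0 :=
  trop_zero_zero' hh hβ hκ hne hprod hsum h₁ h₂

/-- `w x₁ ≤ 0 < w x₂ = b < h` -/
theorem trop_zero_mid' (hh : 0 < h) (hβ : v.EQ β 0) (hκ : v.EQ κ h)
    (hprod : X * Y * (x₁ - x₂) ^ 2 = (x₁ * x₂ - κ) ^ 2)
    (hsum : (X + Y) * (x₁ - x₂) ^ 2 = (x₁ + x₂) * (2 * x₁ * x₂ + 2 * κ) + β * x₁ * x₂)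
    {b : ℝ} (h₁ : v.LE x₁ 0) (h₂ : v.EQ x₂ b) (hb0 : 0 < b) (hbh : b < h) :
    v.EQ X b ∧ v.EQ Y b := by
  have e₁ := EQ_self (v := v) h₁.1
  have hw₁ := h₁.2
  have eD : v.EQ (x₁ - x₂) (v.w x₁) := e₁.sub_GT (h₂.GT (by linarith))
  have eS : v.EQ (x₁ + x₂) (v.w x₁) := e₁.add_GT (h₂.GT (by linarith))
  have e12 := e₁.mul h₂
  have hnum : v.EQ (x₁ * x₂ - κ) (v.w x₁ + b) := e12.sub_GT (hκ.GT (by linarith))
  have hP := (EQ.of_mul_eq_left hprod eD.sq hnum.sq).of_eq (b := 2 * b) (by ring)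
  have hA : v.GE ((x₁ + x₂) * (2 * x₁ * x₂ + 2 * κ) + β * x₁ * x₂) (2 * v.w x₁ + b) := by
    refine GE.add ?_ ?_
    · have a2 : v.GE (2 * x₁ * x₂ + 2 * κ) (v.w x₁ + b) := by
        refine GE.add ?_ ?_
        · rw [mul_assoc]
          exact (e12.GE le_rfl).two_mul
        · exact (hκ.GE (by linarith)).two_mul
      exact ((eS.GE le_rfl).mul a2).mono (by linarith)
    · rw [mul_assoc]
      exact ((hβ.GE le_rfl).mul (e12.GE le_rfl)).mono (by linarith)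
  have hS := (GE.of_mul_eq_left hsum eD.sq hA).mono (b := b) (by linarith)
  exact EQ_of_sum_prod hS hP

/-- `w x₁ ≤ 0 < w x₂ = b < h` -/
theorem trop_zero_mid (hh : 0 < h) (h2 : v.EQ 2 0) (hβ : v.EQ β 0) (hκ : v.EQ κ h)
    (hprod : X * Y * (x₁ - x₂) ^ 2 = (x₁ * x₂ - κ) ^ 2)
    (hsum : (X + Y) * (x₁ - x₂) ^ 2 = (x₁ + x₂) * (2 * x₁ * x₂ + 2 * κ) + β * x₁ * x₂)
    {b : ℝ} (h₁ : v.LE x₁ 0) (h₂ : v.EQ x₂ b) (hb0 : 0 < b) (hbh : b < h) :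
    v.EQ X b ∧ v.EQ Y b :=
  trop_zero_mid' hh hβ hκ hprod hsum h₁ h₂ hb0 hbh

/-- `w x₁ ≤ 0`, `w x₂ ≥ h` -/
theorem trop_zero_top' (hh : 0 < h) (hβ : v.EQ β 0) (hκ : v.EQ κ h)
    (hprod : X * Y * (x₁ - x₂) ^ 2 = (x₁ * x₂ - κ) ^ 2)
    (hsum : (X + Y) * (x₁ - x₂) ^ 2 = (x₁ + x₂) * (2 * x₁ * x₂ + 2 * κ) + β * x₁ * x₂)
    (h₁ : v.LE x₁ 0) (h₂ : v.GE x₂ h) : v.GE X h ∧ v.GE Y h := by
  have e₁ := EQ_self (v := v) h₁.1
  have hw₁ := h₁.2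
  have eD : v.EQ (x₁ - x₂) (v.w x₁) := e₁.sub_GT (h₂.GT (by linarith))
  have eS : v.EQ (x₁ + x₂) (v.w x₁) := e₁.add_GT (h₂.GT (by linarith))
  have g12 : v.GE (x₁ * x₂) (v.w x₁ + h) := (e₁.GE le_rfl).mul h₂
  have hnum : v.GE (x₁ * x₂ - κ) (v.w x₁ + h) := g12.sub (hκ.GE (by linarith))
  have hP := (GE.of_mul_eq_left hprod eD.sq hnum.sq).mono (b := 2 * h) (by linarith)
  have hA : v.GE ((x₁ + x₂) * (2 * x₁ * x₂ + 2 * κ) + β * x₁ * x₂) (2 * v.w x₁ + h) := by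
    refine GE.add ?_ ?_
    · have a2 : v.GE (2 * x₁ * x₂ + 2 * κ) (v.w x₁ + h) := by
        refine GE.add ?_ ?_
        · rw [mul_assoc]
          exact g12.two_mul
        · exact (hκ.GE (by linarith)).two_mul
      exact ((eS.GE le_rfl).mul a2).mono (by linarith)
    · rw [mul_assoc]
      exact ((hβ.GE le_rfl).mul g12).mono (by linarith)
  have hS := (GE.of_mul_eq_left hsum eD.sq hA).mono (b := h) (by linarith)
  exact GE_of_sum_prod hS hP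

/-- `w x₁ ≤ 0`, `w x₂ ≥ h` -/
theorem trop_zero_top (hh : 0 < h) (h2 : v.EQ 2 0) (hβ : v.EQ β 0) (hκ : v.EQ κ h)
    (hprod : X * Y * (x₁ - x₂) ^ 2 = (x₁ * x₂ - κ) ^ 2)
    (hsum : (X + Y) * (x₁ - x₂) ^ 2 = (x₁ + x₂) * (2 * x₁ * x₂ + 2 * κ) + β * x₁ * x₂)
    (h₁ : v.LE x₁ 0) (h₂ : v.GE x₂ h) : v.GE X h ∧ v.GE Y h :=
  trop_zero_top' hh hβ hκ hprod hsum h₁ h₂

/-- `w x₁, w x₂ ≥ h` -/
theorem trop_top_top' (hh : 0 < h) (hβ : v.EQ β 0) (hκ : v.EQ κ h)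
    (hne : x₁ ≠ x₂)
    (hprod : X * Y * (x₁ - x₂) ^ 2 = (x₁ * x₂ - κ) ^ 2)
    (hsum : (X + Y) * (x₁ - x₂) ^ 2 = (x₁ + x₂) * (2 * x₁ * x₂ + 2 * κ) + β * x₁ * x₂)
    (h₁ : v.GE x₁ h) (h₂ : v.GE x₂ h) : v.LE X 0 ∧ v.LE Y 0 := by
  have hD0 : x₁ - x₂ ≠ 0 := sub_ne_zero.mpr hne
  have eD := EQ_self (v := v) hD0
  have hd : h ≤ v.w (x₁ - x₂) := (h₁.sub h₂).le_w hD0
  have g12 : v.GE (x₁ * x₂) (2 * h) := (h₁.mul h₂).mono (by linarith)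
  have hnum : v.EQ (x₁ * x₂ - κ) h := hκ.GT_sub (g12.GT (by linarith))
  have hP := EQ.of_mul_eq_left hprod eD.sq hnum.sq
  have hA : v.GE ((x₁ + x₂) * (2 * x₁ * x₂ + 2 * κ) + β * x₁ * x₂) (2 * h) := by
    refine GE.add ?_ ?_
    · have a2 : v.GE (2 * x₁ * x₂ + 2 * κ) h := by
        refine GE.add ?_ ?_
        · rw [mul_assoc]
          exact (g12.mono (by linarith)).two_mul
        · exact (hκ.GE le_rfl).two_mul
      exact ((h₁.add h₂).mul a2).mono (by linarith)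
    · rw [mul_assoc]
      exact ((hβ.GE le_rfl).mul g12).mono (by linarith)
  have hS := GE.of_mul_eq_left hsum eD.sq hA
  exact LE_zero_of_sum_prod hP hS (by linarith)

/-- `w x₁, w x₂ ≥ h` -/
theorem trop_top_top (hh : 0 < h) (h2 : v.EQ 2 0) (hβ : v.EQ β 0) (hκ : v.EQ κ h)
    (hne : x₁ ≠ x₂)
    (hprod : X * Y * (x₁ - x₂) ^ 2 = (x₁ * x₂ - κ) ^ 2)
    (hsum : (X + Y) * (x₁ - x₂) ^ 2 = (x₁ + x₂) * (2 * x₁ * x₂ + 2 * κ) + β * x₁ * x₂)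
    (h₁ : v.GE x₁ h) (h₂ : v.GE x₂ h) : v.LE X 0 ∧ v.LE Y 0 :=
  trop_top_top' hh hβ hκ hne hprod hsum h₁ h₂

/-- `0 < w x₁ = a < h ≤ w x₂` -/
theorem trop_mid_top' (hh : 0 < h) (hβ : v.EQ β 0) (hκ : v.EQ κ h)
    (hprod : X * Y * (x₁ - x₂) ^ 2 = (x₁ * x₂ - κ) ^ 2)
    (hsum : (X + Y) * (x₁ - x₂) ^ 2 = (x₁ + x₂) * (2 * x₁ * x₂ + 2 * κ) + β * x₁ * x₂)
    {a : ℝ} (h₁ : v.EQ x₁ a) (ha0 : 0 < a) (hah : a < h) (h₂ : v.GE x₂ h) :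
    v.EQ X (h - a) ∧ v.EQ Y (h - a) := by
  have eD : v.EQ (x₁ - x₂) a := h₁.sub_GT (h₂.GT (by linarith))
  have eS : v.EQ (x₁ + x₂) a := h₁.add_GT (h₂.GT (by linarith))
  have g12 : v.GE (x₁ * x₂) (a + h) := (h₁.GE le_rfl).mul h₂
  have hnum : v.EQ (x₁ * x₂ - κ) h := hκ.GT_sub (g12.GT (by linarith))
  have hP := (EQ.of_mul_eq_left hprod eD.sq hnum.sq).of_eq (b := 2 * (h - a)) (by ring)
  have hA : v.GE ((x₁ + x₂) * (2 * x₁ * x₂ + 2 * κ) + β * x₁ * x₂) (a + h) := by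
    refine GE.add ?_ ?_
    · have a2 : v.GE (2 * x₁ * x₂ + 2 * κ) h := by
        refine GE.add ?_ ?_
        · rw [mul_assoc]
          exact (g12.mono (by linarith)).two_mul
        · exact (hκ.GE le_rfl).two_mul
      exact (eS.GE le_rfl).mul a2
    · rw [mul_assoc]
      exact ((hβ.GE le_rfl).mul g12).mono (by linarith)
  have hS := (GE.of_mul_eq_left hsum eD.sq hA).mono (b := h - a) (by linarith)
  exact EQ_of_sum_prod hS hP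

/-- `0 < w x₁ = a < h ≤ w x₂` -/
theorem trop_mid_top (hh : 0 < h) (h2 : v.EQ 2 0) (hβ : v.EQ β 0) (hκ : v.EQ κ h)
    (hprod : X * Y * (x₁ - x₂) ^ 2 = (x₁ * x₂ - κ) ^ 2)
    (hsum : (X + Y) * (x₁ - x₂) ^ 2 = (x₁ + x₂) * (2 * x₁ * x₂ + 2 * κ) + β * x₁ * x₂)
    {a : ℝ} (h₁ : v.EQ x₁ a) (ha0 : 0 < a) (hah : a < h) (h₂ : v.GE x₂ h) :
    v.EQ X (h - a) ∧ v.EQ Y (h - a) :=
  trop_mid_top' hh hβ hκ hprod hsum h₁ ha0 hah h₂

/-! duplication: `X * (x * (4 x² + β x + 4 κ)) = (x² - κ)²` -/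

theorem trop_dbl_zero' (hh : 0 < h) (hβ : v.EQ β 0) (hκ : v.EQ κ h) {x : K}
    (hX : X * (x * (4 * x ^ 2 + β * x + 4 * κ)) = (x ^ 2 - κ) ^ 2)
    (hx : v.LE x 0) : v.LE X 0 := by
  have e := EQ_self (v := v) hx.1
  have hw := hx.2
  have hnum : v.EQ ((x ^ 2 - κ) ^ 2) (4 * v.w x) :=
    ((e.sq.sub_GT (hκ.GT (by linarith))).sq).of_eq (by ring)
  have hden0 : x * (4 * x ^ 2 + β * x + 4 * κ) ≠ 0 := by
    intro h0
    rw [h0, mul_zero] at hX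
    exact hnum.1 hX.symm
  have hX0 : X ≠ 0 := by
    intro h0
    rw [h0, zero_mul] at hX
    exact hnum.1 hX.symm
  have hden : v.GE (x * (4 * x ^ 2 + β * x + 4 * κ)) (3 * v.w x) := by
    have a1 : v.GE (4 * x ^ 2 + β * x + 4 * κ) (2 * v.w x) := by
      refine GE.add (GE.add ?_ ?_) ?_
      · exact (e.sq.GE le_rfl).four_mul
      · exact ((hβ.GE le_rfl).mul (e.GE le_rfl)).mono (by linarith)
      · exact (hκ.GE (by linarith)).four_mul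
    exact ((e.GE le_rfl).mul a1).mono (by linarith)
  have h1 := hden.le_w hden0
  have h2 := hnum.2
  rw [← hX, v.map_mul _ _ hX0 hden0] at h2
  exact ⟨hX0, by linarith⟩

theorem trop_dbl_zero (hh : 0 < h) (h2 : v.EQ 2 0) (hβ : v.EQ β 0) (hκ : v.EQ κ h) {x : K}
    (hX : X * (x * (4 * x ^ 2 + β * x + 4 * κ)) = (x ^ 2 - κ) ^ 2)
    (hx : v.LE x 0) : v.LE X 0 :=
  trop_dbl_zero' hh hβ hκ hX hx

theorem trop_dbl_top' (hh : 0 < h) (hβ : v.EQ β 0) (hκ : v.EQ κ h) {x : K}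
    (hX : X * (x * (4 * x ^ 2 + β * x + 4 * κ)) = (x ^ 2 - κ) ^ 2)
    (hx : v.GE x h) : v.LE X 0 := by
  have hnum : v.EQ ((x ^ 2 - κ) ^ 2) (2 * h) :=
    (hκ.GT_sub (hx.sq.GT (by linarith))).sq
  have hden0 : x * (4 * x ^ 2 + β * x + 4 * κ) ≠ 0 := by
    intro h0
    rw [h0, mul_zero] at hX
    exact hnum.1 hX.symm
  have hX0 : X ≠ 0 := by
    intro h0
    rw [h0, zero_mul] at hX
    exact hnum.1 hX.symm
  have hden : v.GE (x * (4 * x ^ 2 + β * x + 4 * κ)) (2 * h) := by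
    have a1 : v.GE (4 * x ^ 2 + β * x + 4 * κ) h := by
      refine GE.add (GE.add ?_ ?_) ?_
      · exact (hx.sq.mono (by linarith)).four_mul
      · exact ((hβ.GE le_rfl).mul hx).mono (by linarith)
      · exact (hκ.GE le_rfl).four_mul
    exact (hx.mul a1).mono (by linarith)
  have h1 := hden.le_w hden0
  have h2 := hnum.2
  rw [← hX, v.map_mul _ _ hX0 hden0] at h2
  exact ⟨hX0, by linarith⟩

theorem trop_dbl_top (hh : 0 < h) (h2 : v.EQ 2 0) (hβ : v.EQ β 0) (hκ : v.EQ κ h) {x : K}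
    (hX : X * (x * (4 * x ^ 2 + β * x + 4 * κ)) = (x ^ 2 - κ) ^ 2)
    (hx : v.GE x h) : v.LE X 0 :=
  trop_dbl_top' hh hβ hκ hX hx

/-- the denominator of the duplication formula in the middle range -/
lemma trop_dbl_den (hβ : v.EQ β 0) (hκ : v.EQ κ h) {x : K}
    {a : ℝ} (hx : v.EQ x a) (ha0 : 0 < a) (hah : a < h) :
    v.EQ (x * (4 * x ^ 2 + β * x + 4 * κ)) (2 * a) := by
  have a1 : v.EQ (4 * x ^ 2 + β * x + 4 * κ) a := by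
    have b1 : v.EQ (β * x) a := (hβ.mul hx).of_eq (by ring)
    have b2 : v.GT (4 * x ^ 2) a := (hx.sq.GT (by linarith)).four_mul
    have b3 : v.GT (4 * κ) a := (hκ.GT (by linarith)).four_mul
    exact (b1.GT_add b2).add_GT b3
  exact (hx.mul a1).of_eq (by ring)

theorem trop_dbl_mid_lt' (hh : 0 < h) (hβ : v.EQ β 0) (hκ : v.EQ κ h) {x : K}
    (hX : X * (x * (4 * x ^ 2 + β * x + 4 * κ)) = (x ^ 2 - κ) ^ 2)
    {a : ℝ} (hx : v.EQ x a) (ha0 : 0 < a) (hah : 2 * a < h) : v.EQ X (2 * a) := by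
  have hnum : v.EQ ((x ^ 2 - κ) ^ 2) (2 * (2 * a)) := (hx.sq.sub_GT (hκ.GT (by linarith))).sq
  exact (EQ.of_mul_eq_left hX (trop_dbl_den hβ hκ hx ha0 (by linarith)) hnum).of_eq (by ring)

theorem trop_dbl_mid_lt (hh : 0 < h) (h2 : v.EQ 2 0) (hβ : v.EQ β 0) (hκ : v.EQ κ h) {x : K}
    (hX : X * (x * (4 * x ^ 2 + β * x + 4 * κ)) = (x ^ 2 - κ) ^ 2)
    {a : ℝ} (hx : v.EQ x a) (ha0 : 0 < a) (hah : 2 * a < h) : v.EQ X (2 * a) :=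
  trop_dbl_mid_lt' hh hβ hκ hX hx ha0 hah

theorem trop_dbl_mid_gt' (hh : 0 < h) (hβ : v.EQ β 0) (hκ : v.EQ κ h) {x : K}
    (hX : X * (x * (4 * x ^ 2 + β * x + 4 * κ)) = (x ^ 2 - κ) ^ 2)
    {a : ℝ} (hx : v.EQ x a) (hah : a < h) (hah2 : h < 2 * a) : v.EQ X (2 * h - 2 * a) := by
  have hnum : v.EQ ((x ^ 2 - κ) ^ 2) (2 * h) := (hκ.GT_sub (hx.sq.GT (by linarith))).sq
  exact EQ.of_mul_eq_left hX (trop_dbl_den hβ hκ hx (by linarith) hah) hnum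

theorem trop_dbl_mid_gt (hh : 0 < h) (h2 : v.EQ 2 0) (hβ : v.EQ β 0) (hκ : v.EQ κ h) {x : K}
    (hX : X * (x * (4 * x ^ 2 + β * x + 4 * κ)) = (x ^ 2 - κ) ^ 2)
    {a : ℝ} (hx : v.EQ x a) (hah : a < h) (hah2 : h < 2 * a) : v.EQ X (2 * h - 2 * a) :=
  trop_dbl_mid_gt' hh hβ hκ hX hx hah hah2

theorem trop_dbl_mid_eq' (hh : 0 < h) (hβ : v.EQ β 0) (hκ : v.EQ κ h) {x : K}
    (hX : X * (x * (4 * x ^ 2 + β * x + 4 * κ)) = (x ^ 2 - κ) ^ 2)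
    {a : ℝ} (hx : v.EQ x a) (hah2 : 2 * a = h) : v.GE X h := by
  have hnum : v.GE ((x ^ 2 - κ) ^ 2) (2 * h) :=
    ((hx.sq.GE (by linarith)).sub (hκ.GE le_rfl)).sq
  exact (GE.of_mul_eq_left hX (trop_dbl_den hβ hκ hx (by linarith) (by linarith)) hnum).mono
    (by linarith)

theorem trop_dbl_mid_eq (hh : 0 < h) (h2 : v.EQ 2 0) (hβ : v.EQ β 0) (hκ : v.EQ κ h) {x : K}
    (hX : X * (x * (4 * x ^ 2 + β * x + 4 * κ)) = (x ^ 2 - κ) ^ 2)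
    {a : ℝ} (hx : v.EQ x a) (hah2 : 2 * a = h) : v.GE X h :=
  trop_dbl_mid_eq' hh hβ hκ hX hx hah2

/-- a zero of the 2-division polynomial is in the identity or in the opposite component -/
theorem trop_two_torsion' (hβ : v.EQ β 0) (hκ : v.EQ κ h) {x : K}
    (hx : x * (4 * x ^ 2 + β * x + 4 * κ) = 0) : v.LE x 0 ∨ v.GE x h := by
  by_cases hx0 : x = 0
  · exact Or.inr (Or.inl hx0)
  rcases le_or_gt (v.w x) 0 with h0 | h0
  · exact Or.inl ⟨hx0, h0⟩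
  rcases le_or_gt h (v.w x) with h1 | h1
  · exact Or.inr (Or.inr h1)
  exact absurd hx (trop_dbl_den hβ hκ (EQ_self (v := v) hx0) h0 h1).1

/-- a zero of the 2-division polynomial is in the identity or in the opposite component -/
theorem trop_two_torsion (hh : 0 < h) (h2 : v.EQ 2 0) (hβ : v.EQ β 0) (hκ : v.EQ κ h) {x : K}
    (hx : x * (4 * x ^ 2 + β * x + 4 * κ) = 0) : v.LE x 0 ∨ v.GE x h :=
  trop_two_torsion' hβ hκ hx

end Fermat.Agent.S05
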